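import Fermat.Agent.ES1.G2.Plan
import Fermat.Agent.ES1.ConjDeg

/-!
# ES₁ / G2 — piece DIAM-bar: the diamond operators on `fieldBar L M H` and on `JH L M H`
(captain helper36)

* `diamb_ringHom_ext` : a ring homomorphism `fieldBar L M H → ℚ̄((q))` is determined by its values
  on the constants, the `j(q^d)` and the `S_{M,H,a}(q^e)`.
* `IsDiamondH.unique`, `isDiamondH_one`, `IsDiamondH.mul`.
* `stmtDiamondBarH_of_diamond : StmtDiamondH → StmtDiamondBarH`.
* `es1Diamond_eq`, and the three clauses of TOP-b for `D = es1Diamond L M H`: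
  `diamb_diamond_one`, `diamb_diamond_mul`, `diamb_galois_diamond`.
-/

set_option autoImplicit false

noncomputable section

namespace Fermat.Agent.ES1.G2

open ModularCurve AlgebraicCurve HahnSeries IntermediateField Fermat.Agent.ES Fermat.Agent.ES1

/-- ring homomorphisms out of `K(S)` into a field are determined by the constants and `S` -/
theorem diamb_ringHom_ext_adjoin {K Ω Ω' : Type*} [Field K] [Field Ω] [Algebra K Ω] [Field Ω']
    (S : Set Ω) (F : IntermediateField K Ω) (hF : F = IntermediateField.adjoin K S)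
    (f g : F →+* Ω')
    (hc : ∀ a : K, f (algebraMap K F a) = g (algebraMap K F a))
    (hS : ∀ x : F, (x : Ω) ∈ S → f x = g x) : f = g := by
  subst hF
  ext ⟨x, hx⟩
  induction hx using IntermediateField.adjoin_induction with
  | mem y hy => exact hS ⟨y, _⟩ hy
  | algebraMap a => exact hc a
  | add y z hy hz ihy ihz =>
      have : (⟨y + z, add_mem hy hz⟩ : IntermediateField.adjoin K S) = ⟨y, hy⟩ + ⟨z, hz⟩ := rfl
      rw [this, map_add, map_add, ihy, ihz]
  | inv y hy ihy =>
      have : (⟨y⁻¹, inv_mem hy⟩ : IntermediateField.adjoin K S) = (⟨y, hy⟩)⁻¹ := rfl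
      rw [this, map_inv₀, map_inv₀, ihy]
  | mul y z hy hz ihy ihz =>
      have : (⟨y * z, mul_mem hy hz⟩ : IntermediateField.adjoin K S) = ⟨y, hy⟩ * ⟨z, hz⟩ := rfl
      rw [this, map_mul, map_mul, ihy, ihz]

theorem diamb_coeffMap_jd (σ : QbH ≃ₐ[ℚ] QbH) (d : ℕ) [NeZero d] :
    coeffMap (σ : QbH →+* QbH) (qExpand QbH d (jqModC QbH)) = qExpand QbH d (jqModC QbH) :=
  coeffMap_jqNModC (σ : QbH →+* QbH) d

variable (L M : ℕ) (H : Subgroup (ZMod M)ˣ)

/-- a ring homomorphism `fieldBar L M H → Ω'` is determined by its values on the constants and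
on the generators -/
theorem diamb_ringHom_ext {Ω' : Type*} [Field Ω'] (f g : fieldBar L M H →+* Ω')
    (hc : ∀ a : QbH, f (algebraMap QbH (fieldBar L M H) a) = g (algebraMap QbH (fieldBar L M H) a))
    (hj : ∀ (d : ℕ) [NeZero d], d ∣ L → ∀ x : fieldBar L M H,
      (x : LaurentSeries QbH) = qExpand QbH d (jqModC QbH) → f x = g x)
    (hs : ∀ (e : ℕ) [NeZero e] (a : (ZMod M)ˣ), e * M ∣ L → ∀ x : fieldBar L M H,
      (x : LaurentSeries QbH) = qExpand QbH e (sS QbH M H a) → f x = g x) : f = g := by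
  refine diamb_ringHom_ext_adjoin _ (fieldBar L M H) (es1f_fieldBar_eq L M H) f g hc ?_
  rintro x (⟨d, hd, hdL, hx⟩ | ⟨e, he, a, heL, hx⟩)
  · exact hj d hdL x hx
  · exact hs e a heL x hx

variable {L M H}

/-- **uniqueness of the diamond automorphism** -/
theorem IsDiamondH.unique {c : (ZMod M)ˣ} {δ δ' : fieldBar L M H ≃ₐ[QbH] fieldBar L M H}
    (h : IsDiamondH L M H c δ) (h' : IsDiamondH L M H c δ') : δ = δ' := by
  have key : ((fieldBar L M H).val.toRingHom.comp (δ : fieldBar L M H →+* fieldBar L M H))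
      = ((fieldBar L M H).val.toRingHom.comp (δ' : fieldBar L M H →+* fieldBar L M H)) := by
    refine diamb_ringHom_ext L M H _ _ (fun a => ?_) (fun d _ hd x hx => ?_)
      (fun e _ a he x hx => ?_)
    · show ((δ (algebraMap QbH (fieldBar L M H) a) : fieldBar L M H) : LaurentSeries QbH)
        = ((δ' (algebraMap QbH (fieldBar L M H) a) : fieldBar L M H) : LaurentSeries QbH)
      rw [δ.commutes, δ'.commutes]
    · show ((δ x : fieldBar L M H) : LaurentSeries QbH) = ((δ' x : fieldBar L M H) : _)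
      rw [h.fix_j d hd x hx, h'.fix_j d hd x hx]
    · show ((δ x : fieldBar L M H) : LaurentSeries QbH) = ((δ' x : fieldBar L M H) : _)
      rw [h.map_s e a he x hx, h'.map_s e a he x hx]
  refine AlgEquiv.ext fun x => Subtype.ext ?_
  exact congrArg (fun φ : fieldBar L M H →+* LaurentSeries QbH => φ x) key

/-- the identity is the diamond `⟨1⟩` -/
theorem isDiamondH_one : IsDiamondH L M H 1 (1 : fieldBar L M H ≃ₐ[QbH] fieldBar L M H) where
  fix_j := fun _ _ _ _ _ => rfl
  map_s := fun e _ a _ x hx => by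
    rw [mul_one]; exact hx

/-- composition of diamonds -/
theorem IsDiamondH.mul {c d : (ZMod M)ˣ} {δ δ' : fieldBar L M H ≃ₐ[QbH] fieldBar L M H}
    (h : IsDiamondH L M H c δ) (h' : IsDiamondH L M H d δ') :
    IsDiamondH L M H (c * d) (δ * δ') where
  fix_j := fun e _ he x hx => by
    show δ (δ' x) = x
    rw [h'.fix_j e he x hx, h.fix_j e he x hx]
  map_s := fun e _ a he x hx => by
    show ((δ (δ' x) : fieldBar L M H) : LaurentSeries QbH) = _
    rw [h.map_s e (a * d) he (δ' x) (h'.map_s e a he x hx),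
      show a * d * c = a * (c * d) by rw [mul_assoc, mul_comm d c]]

/-- **Existence of the diamonds on `fieldBar`** from piece F3-conj. -/
theorem stmtDiamondBarH_of_diamond (hD : StmtDiamondH) : StmtDiamondBarH := by
  intro L M H hL hML c
  have hM0 : M ≠ 0 := fun h => hL (by rw [h] at hML; exact Nat.eq_zero_of_zero_dvd hML)
  obtain ⟨m, a, ha⟩ := exists_isRepFam hM0 H
  haveI : Algebra.IsAlgebraic ℚ QbH := by
    have h := AlgebraicClosure.isAlgebraic ℚ
    convert h
    · rfl
    · exact Subsingleton.elim _ _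
  obtain ⟨-, -, haut⟩ := hD QbH L M H a hL hML ha
  obtain ⟨σ, hσ, hσS⟩ := haut c
  have hEq : fieldBar L M H = fieldC QbH L M H := es1f_fieldBar_eq L M H
  let ε : fieldBar L M H ≃ₐ[QbH] fieldC QbH L M H := IntermediateField.equivOfEq hEq
  have hε : ∀ x : fieldBar L M H, ((ε x : fieldC QbH L M H) : LaurentSeries QbH) = x :=
    fun x => rfl
  have hεs : ∀ y : fieldC QbH L M H, ((ε.symm y : fieldBar L M H) : LaurentSeries QbH) = y :=
    fun y => rfl
  refine ⟨(ε.trans σ).trans ε.symm, ?_, ?_⟩
  · intro d _ hd x hx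
    apply Subtype.ext
    show ((ε.symm (σ (ε x)) : fieldBar L M H) : LaurentSeries QbH) = x
    rw [hεs, hσ (ε x) (by rw [hε, hx]; exact jqModCd_mem_full QbH L hd), hε]
  · intro e _ b he x hx
    show ((ε.symm (σ (ε x)) : fieldBar L M H) : LaurentSeries QbH) = _
    rw [hεs, ← hσS e he b]
    congr 2
    apply Subtype.ext
    rw [hε, hx]

/-- `es1Diamond` is the action of any diamond automorphism -/
theorem es1Diamond_eq {c : (ZMod M)ˣ} {δ : fieldBar L M H ≃ₐ[QbH] fieldBar L M H}
    (h : IsDiamondH L M H c δ) : es1Diamond L M H c = diamondJ δ := by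
  classical
  have hex : ∃ δ : fieldBar L M H ≃ₐ[QbH] fieldBar L M H, IsDiamondH L M H c δ := ⟨δ, h⟩
  unfold es1Diamond
  rw [dif_pos hex]
  rw [hex.choose_spec.unique h]

theorem diamondJ_apply (δ : fieldBar L M H ≃ₐ[QbH] fieldBar L M H) (x : JH L M H) :
    diamondJ δ x = SemilinearAut.ofAlgAut δ • x := rfl

/-- `⟨1⟩ = 1` -/
theorem diamb_diamond_one (x : JH L M H) : es1Diamond L M H 1 x = x := by
  rw [es1Diamond_eq isDiamondH_one, diamondJ_apply, map_one, one_smul]

/-- `⟨cd⟩ = ⟨c⟩⟨d⟩` -/
theorem diamb_diamond_mul (hB : StmtDiamondBarH) (hL : L ≠ 0) (hML : M ∣ L) (c d : (ZMod M)ˣ)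
    (x : JH L M H) : es1Diamond L M H (c * d) x = es1Diamond L M H c (es1Diamond L M H d x) := by
  obtain ⟨δ, hδ⟩ := hB L M H hL hML c
  obtain ⟨δ', hδ'⟩ := hB L M H hL hML d
  rw [es1Diamond_eq (hδ.mul hδ'), es1Diamond_eq hδ, es1Diamond_eq hδ', diamondJ_apply,
    diamondJ_apply, diamondJ_apply, map_mul, mul_smul]

/-- the diamonds commute with the coefficientwise Galois action on the function field -/
theorem diamb_galois_field {c : (ZMod M)ˣ} {δ : fieldBar L M H ≃ₐ[QbH] fieldBar L M H}
    (h : IsDiamondH L M H c δ) (σ : QbH ≃ₐ[ℚ] QbH) :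
    arithmeticGalois (fieldQ L M H) σ * SemilinearAut.ofAlgAut δ
      = SemilinearAut.ofAlgAut δ * arithmeticGalois (fieldQ L M H) σ := by
  refine Subtype.ext (Prod.ext ?_ ?_)
  · -- the field components
    show arithmeticRingAut (fieldQ L M H) σ * (δ : fieldBar L M H ≃+* fieldBar L M H)
      = (δ : fieldBar L M H ≃+* fieldBar L M H) * arithmeticRingAut (fieldQ L M H) σ
    have key : ((fieldBar L M H).val.toRingHom.comp
        ((arithmeticRingAut (fieldQ L M H) σ * (δ : fieldBar L M H ≃+* fieldBar L M H) :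
          fieldBar L M H ≃+* fieldBar L M H) : fieldBar L M H →+* fieldBar L M H))
        = ((fieldBar L M H).val.toRingHom.comp
          (((δ : fieldBar L M H ≃+* fieldBar L M H) * arithmeticRingAut (fieldQ L M H) σ :
            fieldBar L M H ≃+* fieldBar L M H) : fieldBar L M H →+* fieldBar L M H)) := by
      refine diamb_ringHom_ext L M H _ _ (fun a => ?_) (fun d _ hd x hx => ?_)
        (fun e _ a he x hx => ?_)
      · show coeffMap (σ : QbH →+* QbH)
            ((δ (algebraMap QbH (fieldBar L M H) a) : fieldBar L M H) : LaurentSeries QbH)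
          = ((δ (arithmeticRingAut (fieldQ L M H) σ (algebraMap QbH (fieldBar L M H) a)) :
              fieldBar L M H) : LaurentSeries QbH)
        rw [arithmeticRingAut_algebraMap, δ.commutes, δ.commutes]
        exact coeffMap_algebraMap (σ : QbH →+* QbH) a
      · show coeffMap (σ : QbH →+* QbH) ((δ x : fieldBar L M H) : LaurentSeries QbH)
          = ((δ (arithmeticRingAut (fieldQ L M H) σ x) : fieldBar L M H) : LaurentSeries QbH)
        have hσx : ((arithmeticRingAut (fieldQ L M H) σ x : fieldBar L M H) :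
            LaurentSeries QbH) = qExpand QbH d (jqModC QbH) := by
          rw [coe_arithmeticRingAut_apply, hx]
          exact diamb_coeffMap_jd σ d
        rw [h.fix_j d hd x hx, h.fix_j d hd _ hσx, hσx, hx]
        exact diamb_coeffMap_jd σ d
      · show coeffMap (σ : QbH →+* QbH) ((δ x : fieldBar L M H) : LaurentSeries QbH)
          = ((δ (arithmeticRingAut (fieldQ L M H) σ x) : fieldBar L M H) : LaurentSeries QbH)
        have hσx : ((arithmeticRingAut (fieldQ L M H) σ x : fieldBar L M H) :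
            LaurentSeries QbH) = qExpand QbH e (sS QbH M H a) := by
          rw [coe_arithmeticRingAut_apply, hx]
          exact es1f_coeffMap_qExpand_sS (σ : QbH →+* QbH) M H a e
        rw [h.map_s e a he x hx, h.map_s e a he _ hσx]
        exact es1f_coeffMap_qExpand_sS (σ : QbH →+* QbH) M H (a * c) e
    refine RingEquiv.ext fun x => Subtype.ext ?_
    exact congrArg (fun φ : fieldBar L M H →+* LaurentSeries QbH => φ x) key
  · -- the base components
    show σ.toRingEquiv * 1 = 1 * σ.toRingEquiv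
    rw [mul_one, one_mul]

/-- Galois commutes with the diamonds on `JH` -/
theorem diamb_galois_diamond (hB : StmtDiamondBarH) (hL : L ≠ 0) (hML : M ∣ L)
    (σ : QbH ≃ₐ[ℚ] QbH) (c : (ZMod M)ˣ) (x : JH L M H) :
    σ • es1Diamond L M H c x = es1Diamond L M H c (σ • x) := by
  obtain ⟨δ, hδ⟩ := hB L M H hL hML c
  rw [es1Diamond_eq hδ, diamondJ_apply, diamondJ_apply, galois_smul_pic0_def,
    galois_smul_pic0_def, ← mul_smul, ← mul_smul, diamb_galois_field hδ σ]

end Fermat.Agent.ES1.G2
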