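/-
ES₁ / G2, piece KRON (helper81): Kronecker's congruence for the Hecke operator WITH DIAMOND.

For `Γ_H(M) ∩ Γ₀(L)` the norm of `β^* v = v(q^ℓ)` along `α` has `q`-expansion
`v(q^ℓ) · ∏_{b<ℓ} (δ_ℓ v)(ζ^b q^{1/ℓ})`, where `δ_ℓ` is the diamond operator.  In terms of
Laurent series: `kronHeckeD ℓ ζ f g = f(q^ℓ) · ∏_{b<ℓ} g(ζ^b q^{1/ℓ})` (`g = δ_ℓ f`), and
* `kronHeckeD_congr`      (K4δ): `kronHeckeD f g ≡ (τ⁻¹ f)^ℓ · τ g`;
* `kronHeckeD_frob_congr` (K6δ): `kronHeckeD (τ f) (τ g) ≡ f^ℓ · τ² g`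
modulo the maximal ideal of `A`, for every Frobenius element `τ` at `A` over `ℓ`.
Everything is a formal consequence of K2, K3 of `ES/Kronecker.lean`.
-/
import Fermat.Agent.ES.Kronecker

set_option autoImplicit false
set_option linter.unusedSectionVars false

noncomputable section

namespace Fermat.Agent.ES1.G2

open ModularCurve HahnSeries Fermat.Agent.ES

variable {K L : Type*} [Field K] [Field L] [Algebra K L] {A : ValuationSubring L}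
variable {ℓ : ℕ} [NeZero ℓ]

/-- The multiplicative Hecke operator with diamond on `q`-expansions:
`f(q^ℓ) · ∏_{b<ℓ} g(ζ^b q^{1/ℓ})`, to be used with `g = δ_ℓ f`. -/
def kronHeckeD (ℓ : ℕ) [NeZero ℓ] (ζ : Lˣ) (f g : LaurentSeries L) : LaurentSeries L :=
  qExpand L ℓ f * kronNorm ℓ ζ g

theorem kronHeckeD_self (ζ : Lˣ) (f : LaurentSeries L) :
    kronHeckeD ℓ ζ f f = kronHecke ℓ ζ f := rfl

theorem kronInt_kronHeckeD (ζ : Lˣ) (hζ : ζ ^ ℓ = 1) {f g : LaurentSeries L}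
    (hf : KronInt A f) (hg : KronInt A g) : KronInt A (kronHeckeD ℓ ζ f g) :=
  (hf.qExpand ℓ).mul (hg.kronNorm ζ hζ)

/-- **K4δ.** `f(q^ℓ) · ∏_{b<ℓ} g(ζ^b q^{1/ℓ}) ≡ (τ⁻¹ f)^ℓ · τ g`. -/
theorem kronHeckeD_congr (hℓ : ℓ.Prime) (hA : A.LiesOverPrime ℓ) (ζ : Lˣ) (hζ : ζ ^ ℓ = 1)
    (τ : L ≃ₐ[K] L) (hτ : A.IsFrobeniusAt τ ℓ) {f g : LaurentSeries L} (hf : KronInt A f)
    (hg : KronInt A g) :
    KronCongr A (kronHeckeD ℓ ζ f g)
      ((coeffMap ((τ.symm : L ≃ₐ[K] L) : L →+* L) f) ^ ℓ * coeffMap (τ : L →+* L) g) :=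
  KronCongr.mul (hf.qExpand ℓ)
    ((hf.coeffMap_of_mem_decomposition τ.symm
      (kron_symm_mem_decomposition hτ.mem_decompositionSubgroup)).pow ℓ)
    (hg.kronNorm ζ hζ) (hg.coeffMap_of_mem_decomposition τ hτ.mem_decompositionSubgroup)
    (kron_qExpand_congr hℓ hA τ hτ hf) (kronNorm_congr hℓ hA ζ hζ τ hτ hg)

/-- **K6δ (Eichler–Shimura with diamond on `q`-expansions, multiplicative form).**
`T_ℓ (τ f) ≡ f^ℓ · τ² (δ_ℓ f)`. -/
theorem kronHeckeD_frob_congr (hℓ : ℓ.Prime) (hA : A.LiesOverPrime ℓ) (ζ : Lˣ)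
    (hζ : ζ ^ ℓ = 1) (τ : L ≃ₐ[K] L) (hτ : A.IsFrobeniusAt τ ℓ) {f g : LaurentSeries L}
    (hf : KronInt A f) (hg : KronInt A g) :
    KronCongr A (kronHeckeD ℓ ζ (coeffMap (τ : L →+* L) f) (coeffMap (τ : L →+* L) g))
      (f ^ ℓ * coeffMap (τ : L →+* L) (coeffMap (τ : L →+* L) g)) := by
  have h := kronHeckeD_congr hℓ hA ζ hζ τ hτ
    (hf.coeffMap_of_mem_decomposition τ hτ.mem_decompositionSubgroup)
    (hg.coeffMap_of_mem_decomposition τ hτ.mem_decompositionSubgroup)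
  rwa [kron_coeffMap_symm_coeffMap] at h


/-- the right-hand side of K6δ is primitive when `f` and `g` are -/
theorem kronPrim_frobD_rhs (τ : L ≃ₐ[K] L) (hτ : A.IsFrobeniusAt τ ℓ) {f g : LaurentSeries L}
    (hf : KronPrim A f) (hg : KronPrim A g) :
    KronPrim A (f ^ ℓ * coeffMap (τ : L →+* L) (coeffMap (τ : L →+* L) g)) :=
  (hf.pow ℓ).mul ((hg.coeffMap_of_mem_decomposition τ hτ.mem_decompositionSubgroup
    ).coeffMap_of_mem_decomposition τ hτ.mem_decompositionSubgroup)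

theorem kronPrim_kronHeckeD_frob (hℓ : ℓ.Prime) (hA : A.LiesOverPrime ℓ) (ζ : Lˣ)
    (hζ : ζ ^ ℓ = 1) (τ : L ≃ₐ[K] L) (hτ : A.IsFrobeniusAt τ ℓ) {f g : LaurentSeries L}
    (hf : KronPrim A f) (hg : KronPrim A g) :
    KronPrim A (kronHeckeD ℓ ζ (coeffMap (τ : L →+* L) f) (coeffMap (τ : L →+* L) g)) :=
  (kronPrim_frobD_rhs τ hτ hf hg).of_congr
    (kronInt_kronHeckeD ζ hζ
      (hf.1.coeffMap_of_mem_decomposition τ hτ.mem_decompositionSubgroup)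
      (hg.1.coeffMap_of_mem_decomposition τ hτ.mem_decompositionSubgroup))
    (kronHeckeD_frob_congr hℓ hA ζ hζ τ hτ hf.1 hg.1).symm

/-- the right-hand side of K4δ is primitive when `f` and `g` are -/
theorem kronPrim_heckeD_rhs (τ : L ≃ₐ[K] L) (hτ : A.IsFrobeniusAt τ ℓ) {f g : LaurentSeries L}
    (hf : KronPrim A f) (hg : KronPrim A g) :
    KronPrim A
      ((coeffMap ((τ.symm : L ≃ₐ[K] L) : L →+* L) f) ^ ℓ * coeffMap (τ : L →+* L) g) :=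
  ((hf.coeffMap_of_mem_decomposition τ.symm
    (kron_symm_mem_decomposition hτ.mem_decompositionSubgroup)).pow ℓ).mul
    (hg.coeffMap_of_mem_decomposition τ hτ.mem_decompositionSubgroup)

theorem kronPrim_kronHeckeD (hℓ : ℓ.Prime) (hA : A.LiesOverPrime ℓ) (ζ : Lˣ)
    (hζ : ζ ^ ℓ = 1) (τ : L ≃ₐ[K] L) (hτ : A.IsFrobeniusAt τ ℓ) {f g : LaurentSeries L}
    (hf : KronPrim A f) (hg : KronPrim A g) : KronPrim A (kronHeckeD ℓ ζ f g) :=
  (kronPrim_heckeD_rhs τ hτ hf hg).of_congr (kronInt_kronHeckeD ζ hζ hf.1 hg.1)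
    (kronHeckeD_congr hℓ hA ζ hζ τ hτ hf.1 hg.1).symm

/-! ### Algebra -/

theorem kronHeckeD_one (ζ : Lˣ) : kronHeckeD ℓ ζ (1 : LaurentSeries L) 1 = 1 := by
  rw [kronHeckeD, map_one, kronNorm_one, mul_one]

theorem kronHeckeD_mul (ζ : Lˣ) (hζ : IsPrimitiveRoot ζ ℓ) (f f' g g' : LaurentSeries L) :
    kronHeckeD ℓ ζ (f * f') (g * g') = kronHeckeD ℓ ζ f g * kronHeckeD ℓ ζ f' g' := by
  rw [kronHeckeD, kronHeckeD, kronHeckeD, map_mul, kronNorm_mul ℓ ζ hζ]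
  ring

theorem kronHeckeD_eq_of_isPrimitiveRoot (ζ ζ' : Lˣ) (hζ : IsPrimitiveRoot ζ ℓ)
    (hζ' : IsPrimitiveRoot ζ' ℓ) (f g : LaurentSeries L) :
    kronHeckeD ℓ ζ' f g = kronHeckeD ℓ ζ f g := by
  rw [kronHeckeD, kronHeckeD, kronNorm_eq_of_isPrimitiveRoot ℓ ζ ζ' hζ hζ']

/-- the Hecke operator with diamond commutes with the Galois action on the coefficients -/
theorem coeffMap_kronHeckeD_algEquiv (ζ : Lˣ) (hζ : IsPrimitiveRoot ζ ℓ) (σ : L ≃ₐ[K] L)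
    (f g : LaurentSeries L) :
    coeffMap (σ : L →+* L) (kronHeckeD ℓ ζ f g) =
      kronHeckeD ℓ ζ (coeffMap (σ : L →+* L) f) (coeffMap (σ : L →+* L) g) := by
  rw [kronHeckeD, kronHeckeD, map_mul, coeffMap_kronNorm_algEquiv ζ hζ, coeffMap_qExpand]

end Fermat.Agent.ES1.G2
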