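/-
ES₁ / G2, piece HN, core (helper81): the Hecke norm WITH DIAMOND from the Atkin–Lehner swap and
the degree, in a GENERIC form.

`F, F' ⊂ ℚ̄((q))` fields, `α : F → F'` the inclusion, `β : F → F'`, `β v = v(q^ℓ)`,
`δ : F → F` (the diamond `δ_ℓ`), `w : F' → F'` with `w ∘ α = β` and `w ∘ β = α ∘ δ`,
`[F' : F] = ℓ + 1` along `α`, and an element `J ∈ F` with `δ J = J` whose coefficient of `q⁻¹` is `1`
(in practice `J = j`).  Then the norm of `β v` along `α` has `q`-expansion
`kronHeckeD ℓ ζ v (δ v) = v(q^ℓ) · ∏_{b<ℓ} (δ v)(ζ^b q^{1/ℓ})`.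

Proof (fork of `ES/G2/HeckeNormCore.lean`): the `ℓ + 1` maps `x ↦ x(t^ℓ)` and
`x ↦ (w x)(ζ^b t)` (`b < ℓ`) are pairwise distinct `F`-embeddings of `F'` into `ℚ̄((t))`
(`F ↪ ℚ̄((t))` by `x ↦ x(t^ℓ)`), hence all of them.
-/
import Fermat.Agent.ES.G2.HeckeNormCore
import Fermat.Agent.ES1.G2.KronD

set_option autoImplicit false
set_option linter.unusedSectionVars false

noncomputable section

namespace Fermat.Agent.ES1.G2

open ModularCurve AlgebraicCurve Fermat.Agent.ES Fermat.Agent.ES.G2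

section Core

variable (F F' : IntermediateField Qb (LaurentSeries Qb)) (ℓ : ℕ) [NeZero ℓ]

/-- `F → ℚ̄((t))‾`, `u ↦ u(t^ℓ)` -/
def hnDBase : F →+* HnOmegaBar :=
  (algebraMap HnOmega HnOmegaBar).comp
    ((qExpand Qb ℓ).comp (algebraMap F (LaurentSeries Qb)))

theorem hnDBase_apply (x : F) :
    hnDBase F ℓ x = algebraMap HnOmega HnOmegaBar (qExpand Qb ℓ (x : LaurentSeries Qb)) := rfl

/-- the embedding `σ_c : F' → ℚ̄((t))‾`, `x ↦ (w x)(c t)` -/
def hnDRot (w : F' →+* F') (c : Qbˣ) : F' →+* HnOmegaBar :=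
  (algebraMap HnOmega HnOmegaBar).comp
    ((kronRot c).comp ((algebraMap F' (LaurentSeries Qb)).comp w))

theorem hnDRot_apply (w : F' →+* F') (c : Qbˣ) (x : F') :
    hnDRot F' w c x = algebraMap HnOmega HnOmegaBar (kronRot c ((w x : LaurentSeries Qb))) := rfl

variable {F F'} (α β : F →+* F')
  (hα : ∀ x : F, ((α x : F') : LaurentSeries Qb) = (x : LaurentSeries Qb))
  (hβ : ∀ x : F, ((β x : F') : LaurentSeries Qb) = qExpand Qb ℓ (x : LaurentSeries Qb))
  (δ : F →+* F) (w : F' →+* F')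

include hα in
theorem hnDInf_alpha (x : F) : hnDBase F' ℓ (α x) = hnDBase F ℓ x := by
  rw [hnDBase_apply, hnDBase_apply, hα]

include hβ in
theorem hnDInf_beta (x : F) :
    hnDBase F' ℓ (β x)
      = algebraMap HnOmega HnOmegaBar (qExpand Qb ℓ (qExpand Qb ℓ (x : LaurentSeries Qb))) := by
  rw [hnDBase_apply, hβ]

include hβ in
theorem hnDRot_alpha (hwα : ∀ x, w (α x) = β x) (c : Qbˣ) (hc : c ^ ℓ = 1) (x : F) :
    hnDRot F' w c (α x) = hnDBase F ℓ x := by
  rw [hnDRot_apply, hnDBase_apply, hwα, hβ, qExpand_kronRot_pow, hc, kronRot_one]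

include hα in
theorem hnDRot_beta (hwβ : ∀ x, w (β x) = α (δ x)) (c : Qbˣ) (x : F) :
    hnDRot F' w c (β x)
      = algebraMap HnOmega HnOmegaBar (kronRot c ((δ x : F) : LaurentSeries Qb)) := by
  rw [hnDRot_apply, hwβ, hα]

/-- the family of `ℓ + 1` ring homomorphisms `F' → ℚ̄((t))‾` -/
def hnDFam (w : F' →+* F') (ζ : Qbˣ) : Option (Fin ℓ) → (F' →+* HnOmegaBar)
  | none => hnDBase F' ℓ
  | some b => hnDRot F' w (ζ ^ (b : ℕ))

include hα hβ in
theorem hnDFam_alpha (hwα : ∀ x, w (α x) = β x) (ζ : Qbˣ) (hζ : ζ ^ ℓ = 1)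
    (i : Option (Fin ℓ)) (x : F) : hnDFam ℓ w ζ i (α x) = hnDBase F ℓ x := by
  cases i with
  | none => exact hnDInf_alpha ℓ α hα x
  | some b =>
      refine hnDRot_alpha ℓ α β hβ w hwα _ ?_ x
      rw [← pow_mul, mul_comm, pow_mul, hζ, one_pow]

include hα hβ in
theorem hnDFam_injective (hℓ : ℓ.Prime) (hwβ : ∀ x, w (β x) = α (δ x))
    (J : F) (hJ : (J : LaurentSeries Qb).coeff (-1) = 1) (hJδ : δ J = J)
    (ζ : Qbˣ) (hζ : IsPrimitiveRoot ζ ℓ) : Function.Injective (hnDFam ℓ w ζ) := by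
  have hcoef : ∀ b : Fin ℓ, (kronRot (ζ ^ (b : ℕ)) (J : LaurentSeries Qb)).coeff (-1)
      = (((ζ ^ (b : ℕ)) ^ (-1 : ℤ) : Qbˣ) : Qb) := by
    intro b
    rw [kronRot_coeff, hJ, mul_one]
  have hinf : (qExpand Qb ℓ (qExpand Qb ℓ (J : LaurentSeries Qb))).coeff (-1) = 0 := by
    apply qExpand_coeff_of_not_dvd
    intro hdvd
    have h1 : ((ℓ : ℤ)) ∣ 1 := (dvd_neg).1 hdvd
    have h2 : ℓ ∣ 1 := by exact_mod_cast h1
    exact hℓ.one_lt.ne' (Nat.dvd_one.1 h2)
  have hvalInf : hnDFam ℓ w ζ none (β J)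
      = algebraMap HnOmega HnOmegaBar (qExpand Qb ℓ (qExpand Qb ℓ (J : LaurentSeries Qb))) :=
    hnDInf_beta ℓ β hβ J
  have hvalRot : ∀ b : Fin ℓ, hnDFam ℓ w ζ (some b) (β J)
      = algebraMap HnOmega HnOmegaBar (kronRot (ζ ^ (b : ℕ)) (J : LaurentSeries Qb)) := by
    intro b
    have := hnDRot_beta α β hα δ w hwβ (ζ ^ (b : ℕ)) J
    rw [hJδ] at this
    exact this
  intro i i' h
  have h' : hnDFam ℓ w ζ i (β J) = hnDFam ℓ w ζ i' (β J) := by rw [h]
  cases i with
  | none =>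
      cases i' with
      | none => rfl
      | some b' =>
          exfalso
          rw [hvalInf, hvalRot] at h'
          have h2 := congrArg (fun g : LaurentSeries Qb => g.coeff (-1))
            (hn_algebraMap_injective h')
          simp only [hinf, hcoef] at h2
          exact Units.ne_zero _ h2.symm
  | some b =>
      cases i' with
      | none =>
          exfalso
          rw [hvalInf, hvalRot] at h'
          have h2 := congrArg (fun g : LaurentSeries Qb => g.coeff (-1))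
            (hn_algebraMap_injective h')
          simp only [hinf, hcoef] at h2
          exact Units.ne_zero _ h2
      | some b' =>
          rw [hvalRot, hvalRot] at h'
          have h2 := congrArg (fun g : LaurentSeries Qb => g.coeff (-1))
            (hn_algebraMap_injective h')
          simp only [hcoef] at h2
          have h3 : (ζ ^ (b : ℕ)) ^ (-1 : ℤ) = (ζ ^ (b' : ℕ)) ^ (-1 : ℤ) := Units.ext h2
          have h4 : ζ ^ (b : ℕ) = ζ ^ (b' : ℕ) := by
            have := congrArg (fun u : Qbˣ => u⁻¹) h3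
            simpa using this
          have h5 : (b : ℕ) = (b' : ℕ) := hζ.pow_inj b.2 b'.2 h4
          exact congrArg some (Fin.ext h5)

set_option synthInstance.maxHeartbeats 400000 in
include hα hβ in
/-- **HN with diamond, core.**  From the swap `w` and the degree `[F' : F] = ℓ + 1`: the norm of
`β v = v(q^ℓ)` from `F'` to `F` has `q`-expansion `kronHeckeD ℓ ζ v (δ v)`. -/
theorem hnD_norm (hℓ : ℓ.Prime) (hwα : ∀ x, w (α x) = β x) (hwβ : ∀ x, w (β x) = α (δ x))
    (hdeg : @Module.finrank F F' _ _ (@Algebra.toModule F F' _ _ α.toAlgebra) = ℓ + 1)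
    (J : F) (hJ : (J : LaurentSeries Qb).coeff (-1) = 1) (hJδ : δ J = J)
    (ζ : Qbˣ) (hζ : IsPrimitiveRoot ζ ℓ) (v : F) :
    ((@Algebra.norm F F' _ _ α.toAlgebra (β v) : F) : LaurentSeries Qb) =
      kronHeckeD ℓ ζ (v : LaurentSeries Qb) ((δ v : F) : LaurentSeries Qb) := by
  let algF' : Algebra F F' := α.toAlgebra
  let algE : Algebra F HnOmegaBar := (hnDBase F ℓ).toAlgebra
  have hfin : FiniteDimensional F F' :=
    Module.finite_of_finrank_pos (by rw [hdeg]; omega)
  have : CharZero F := charZero_of_injective_algebraMap (algebraMap Qb F).injective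
  have hsep : Algebra.IsSeparable F F' := inferInstance
  let e : Option (Fin ℓ) → (F' →ₐ[F] HnOmegaBar) := fun i =>
    { hnDFam ℓ w ζ i with
      commutes' := fun x => hnDFam_alpha ℓ α β hα hβ w hwα ζ hζ.pow_eq_one i x }
  have he : Function.Injective e := by
    intro i i' h
    apply hnDFam_injective ℓ α β hα hβ δ w hℓ hwβ J hJ hJδ ζ hζ
    have := congrArg (fun g : F' →ₐ[F] HnOmegaBar => (g : F' →+* HnOmegaBar)) h
    exact this
  have hcard : Fintype.card (Option (Fin ℓ)) = Module.finrank F F' := by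
    rw [hdeg, Fintype.card_option, Fintype.card_fin]
  have key := hn_norm_eq_prod_of_injective e he hcard (β v)
  rw [Fintype.prod_option] at key
  have h1 : e none (β v)
      = algebraMap HnOmega HnOmegaBar (qExpand Qb ℓ (qExpand Qb ℓ (v : LaurentSeries Qb))) :=
    hnDInf_beta ℓ β hβ v
  have h2 : ∀ b : Fin ℓ, e (some b) (β v)
      = algebraMap HnOmega HnOmegaBar
          (kronRot (ζ ^ (b : ℕ)) ((δ v : F) : LaurentSeries Qb)) :=
    fun b => hnDRot_beta α β hα δ w hwβ _ v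
  have h3 : algebraMap F HnOmegaBar (Algebra.norm F (β v))
      = algebraMap HnOmega HnOmegaBar (qExpand Qb ℓ
          ((Algebra.norm F (β v) : F) : LaurentSeries Qb)) := rfl
  rw [h3, h1] at key
  simp only [h2] at key
  rw [← map_prod, ← map_mul,
    Fin.prod_univ_eq_prod_range (fun b => kronRot (ζ ^ b) ((δ v : F) : LaurentSeries Qb)) ℓ,
    ← qExpand_kronNorm_field ζ hζ, ← map_mul] at key
  exact qExpand_injective ℓ (hn_algebraMap_injective key)

end Core

end Fermat.Agent.ES1.G2
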