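import Fermat.Agent.ES1.G2.KronD
import Fermat.Agent.ES1.InjPlan
import Fermat.Agent.ES1.HInputs
import Fermat.Agent.ES.PackageInf

/-!
# ES₁ / G2 — interface (definitions and statements only; sub-captain helper78)

`F = fieldBar L M H ⊂ ℚ̄((q))` is the function field of `X_H(L; M)`, `JH L M H = Pic⁰ F`.
Everything which does not use the modular nature of `F` is stated for an arbitrary intermediate
field `F` of `ℚ̄((q)) / ℚ̄` (`ReducesToOneF`, `PrimAt`, `InjAt`).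

* `IsDiamondH L M H c δ` : the `ℚ̄`-automorphism `δ` of `F` is the diamond operator `⟨c⟩`:
  it fixes the `j(q^d)`, `d ∣ L`, and maps `S_{M,H,a}(q^e)` to `S_{M,H,ac}(q^e)`.
  (`δ` is unique; existence = piece F3.)  `diamondJ δ` : its action on `JH L M H`.
* `StmtPrimH` (PRIM), `StmtInjPrimeH`, `StmtInjH` (INJ in Kronecker form),
  `StmtHeckeNormH` (HN: `N_α(β v) = v(q^ℓ) · ∏_{b<ℓ} (δ_ℓ v)(ζ^b q^{1/ℓ})`),
  `StmtSwapH`, `StmtDegH` (the two inputs of HN),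
  `StmtUnramH`, `StmtFrobH` (the two clauses of the Eichler–Shimura package for `JH`).

See `NOTES/ES1-G2.md` for the piece table.
-/

set_option autoImplicit false

noncomputable section

namespace Fermat.Agent.ES1.G2

open ModularCurve AlgebraicCurve HahnSeries Fermat.Agent.ES Fermat.Agent.ES1

/-- `ℚ̄` -/
abbrev QbH : Type := AlgebraicClosure ℚ

/-! ## Generic Gauss predicates for a subfield of `ℚ̄((q))` -/

/-- `u ∈ F` is congruent to `1` modulo the maximal ideal of `A` (Gauss valuation of the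
`q`-expansion), in fraction form. -/
def ReducesToOneF (A : ValuationSubring QbH) (F : IntermediateField QbH (LaurentSeries QbH))
    (u : F) : Prop :=
  ∃ y₁ y₂ : LaurentSeries QbH, y₁ ∈ F ∧ y₂ ∈ F ∧
    KronPrim A y₁ ∧ KronPrim A y₂ ∧ KronCongr A y₁ y₂ ∧ (u : LaurentSeries QbH) * y₂ = y₁

/-- (PRIM) for `F` at `A`: every `u ∈ F^×` is `c · y₁ / y₂`, `c ∈ ℚ̄^×`, `y₁, y₂ ∈ F` primitive
`A`-integral. -/
def PrimAt (A : ValuationSubring QbH) (F : IntermediateField QbH (LaurentSeries QbH)) : Prop :=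
  ∀ u : F, u ≠ 0 →
    ∃ (c : QbH) (y₁ y₂ : LaurentSeries QbH), c ≠ 0 ∧ y₁ ∈ F ∧ y₂ ∈ F ∧
      KronPrim A y₁ ∧ KronPrim A y₂ ∧ (u : LaurentSeries QbH) * y₂ = HahnSeries.C c * y₁

/-- (INJ) for `F` at `A` and the exponent `m`: `u ∈ F^×`, `u ≡ 1`, `m ∣ ord_P u` for all places
`P` of `F / ℚ̄` implies that `u` is an `m`-th power in `F`. -/
def InjAt (A : ValuationSubring QbH) (F : IntermediateField QbH (LaurentSeries QbH))
    (m : ℕ) : Prop :=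
  ∀ u : F, u ≠ 0 → ReducesToOneF A F u →
    (∀ P : Place QbH F, (m : ℤ) ∣ P.ord u) → ∃ h : F, h ^ m = u

/-! ## The statements at level `(L; M, H)` -/

/-- piece `PRIM` (DONE: `es1prim_fieldBar`, helper81). -/
def StmtPrimH : Prop :=
  ∀ (L M : ℕ) (H : Subgroup (ZMod M)ˣ) (A : ValuationSubring QbH), PrimAt A (fieldBar L M H)

/-- (INJ) for prime exponents, Kronecker form (bridge from `ES1.StmtINJHAll`). -/
def StmtInjPrimeH : Prop :=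
  ∀ (L M : ℕ) (H : Subgroup (ZMod M)ˣ) (ℓ p : ℕ), L ≠ 0 → M ∣ L → ℓ.Prime → p.Prime →
    ¬ ℓ ∣ L → ℓ ≠ p →
      ∀ A : ValuationSubring QbH, A.LiesOverPrime ℓ → InjAt A (fieldBar L M H) p

/-- (INJ) for all exponents prime to `ℓ`. -/
def StmtInjH : Prop :=
  ∀ (L M : ℕ) (H : Subgroup (ZMod M)ˣ) (ℓ : ℕ), L ≠ 0 → M ∣ L → ℓ.Prime → ¬ ℓ ∣ L →
    ∀ A : ValuationSubring QbH, A.LiesOverPrime ℓ →
      ∀ m : ℕ, ¬ ℓ ∣ m → InjAt A (fieldBar L M H) m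

/-- **The diamond operator** `⟨c⟩` on the function field of `X_H(L; M)`: the `ℚ̄`-automorphism
fixing `j(q^d)` (`d ∣ L`) and mapping `S_{M,H,a}(q^e)` to `S_{M,H,ac}(q^e)` (`e M ∣ L`). -/
structure IsDiamondH (L M : ℕ) (H : Subgroup (ZMod M)ˣ) (c : (ZMod M)ˣ)
    (δ : fieldBar L M H ≃ₐ[QbH] fieldBar L M H) : Prop where
  /-- `δ` fixes `j(q^d)`, `d ∣ L` -/
  fix_j : ∀ (d : ℕ) [NeZero d], d ∣ L → ∀ x : fieldBar L M H,
    (x : LaurentSeries QbH) = qExpand QbH d (jqModC QbH) → δ x = x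
  /-- `δ S_a(q^e) = S_{ac}(q^e)` -/
  map_s : ∀ (e : ℕ) [NeZero e] (a : (ZMod M)ˣ), e * M ∣ L → ∀ x : fieldBar L M H,
    (x : LaurentSeries QbH) = qExpand QbH e (sS QbH M H a) →
      ((δ x : fieldBar L M H) : LaurentSeries QbH) = qExpand QbH e (sS QbH M H (a * c))

/-- the action of a `ℚ̄`-automorphism of the function field on `JH L M H = Pic⁰` -/
def diamondJ {L M : ℕ} {H : Subgroup (ZMod M)ˣ}
    (δ : fieldBar L M H ≃ₐ[QbH] fieldBar L M H) : JH L M H →+ JH L M H :=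
  DistribSMul.toAddMonoidHom (JH L M H) (SemilinearAut.ofAlgAut δ)

/-- diamonds exist on `fieldBar` (from `ES1.StmtDiamondH`, piece F3-conj, with `K = ℚ̄`) -/
def StmtDiamondBarH : Prop :=
  ∀ (L M : ℕ) (H : Subgroup (ZMod M)ˣ), L ≠ 0 → M ∣ L →
    ∀ c : (ZMod M)ˣ, ∃ δ : fieldBar L M H ≃ₐ[QbH] fieldBar L M H, IsDiamondH L M H c δ

open Classical in
/-- **The diamond operator `⟨c⟩` on `JH L M H`** (`0` if the automorphism does not exist). -/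
def es1Diamond (L M : ℕ) (H : Subgroup (ZMod M)ˣ) (c : (ZMod M)ˣ) : JH L M H →+ JH L M H :=
  if h : ∃ δ : fieldBar L M H ≃ₐ[QbH] fieldBar L M H, IsDiamondH L M H c δ then
    diamondJ h.choose
  else 0

/-- piece `SWAP`: the Atkin–Lehner endomorphism `w` of `fieldBar (L ℓ) M H` with `w ∘ α = β` and
`w ∘ β = α ∘ δ_ℓ`. -/
def StmtSwapH : Prop :=
  ∀ (L M : ℕ) (H : Subgroup (ZMod M)ˣ) (ℓ : ℕ) [NeZero ℓ], L ≠ 0 → M ∣ L → ℓ.Prime → ¬ ℓ ∣ L →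
    ∀ c : (ZMod M)ˣ, (c : ZMod M) = (ℓ : ZMod M) →
    ∀ δ : fieldBar L M H ≃ₐ[QbH] fieldBar L M H, IsDiamondH L M H c δ →
      ∃ w : fieldBar (L * ℓ) M H →+* fieldBar (L * ℓ) M H,
        (∀ x, w (es1hAlpha L M H ℓ x) = es1hBeta L M H ℓ x) ∧
          ∀ x, w (es1hBeta L M H ℓ x) = es1hAlpha L M H ℓ (δ x)

/-- piece `DEG`: `[fieldBar (L ℓ) M H : fieldBar L M H] = ℓ + 1` along the inclusion `α`. -/
def StmtDegH : Prop :=
  ∀ (L M : ℕ) (H : Subgroup (ZMod M)ˣ) (ℓ : ℕ) [NeZero ℓ], L ≠ 0 → M ∣ L → ℓ.Prime → ¬ ℓ ∣ L →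
    @Module.finrank (fieldBar L M H) (fieldBar (L * ℓ) M H) _ _
      (@Algebra.toModule _ _ _ _ (es1hAlpha L M H ℓ).toAlgebra) = ℓ + 1

/-- piece `HN` (Hecke norm in `q`-expansions, with diamond): for `v ∈ F` and a prime `ℓ ∤ L`, the
norm of `β v = v(q^ℓ)` along `α` has `q`-expansion
`kronHeckeD ℓ ζ v (δ_ℓ v) = v(q^ℓ) · ∏_{b<ℓ} (δ_ℓ v)(ζ^b q^{1/ℓ})`. -/
def StmtHeckeNormH : Prop :=
  ∀ (L M : ℕ) (H : Subgroup (ZMod M)ˣ) (ℓ : ℕ) [NeZero ℓ], L ≠ 0 → M ∣ L → ℓ.Prime → ¬ ℓ ∣ L →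
    ∀ c : (ZMod M)ˣ, (c : ZMod M) = (ℓ : ZMod M) →
    ∀ δ : fieldBar L M H ≃ₐ[QbH] fieldBar L M H, IsDiamondH L M H c δ →
    ∀ ζ : QbHˣ, IsPrimitiveRoot ζ ℓ →
      ∀ v : fieldBar L M H,
        ((@Algebra.norm (fieldBar L M H) (fieldBar (L * ℓ) M H) _ _
            (es1hAlpha L M H ℓ).toAlgebra (es1hBeta L M H ℓ v) : fieldBar L M H) :
              LaurentSeries QbH) =
          kronHeckeD ℓ ζ (v : LaurentSeries QbH) ((δ v : fieldBar L M H) : LaurentSeries QbH)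

/-- clause `unram`: inertia at places over `ℓ ∤ L m` acts trivially on `JH L M H [m]`. -/
def StmtUnramH : Prop :=
  ∀ (L M : ℕ) (H : Subgroup (ZMod M)ˣ) (m : ℕ), L ≠ 0 → M ∣ L →
    ∀ ℓ : ℕ, ℓ.Prime → ¬ ℓ ∣ L * m →
      ∀ A : ValuationSubring QbH, A.LiesOverPrime ℓ →
        ∀ σ ∈ A.inertiaSubgroupIn ℚ, ∀ x : JH L M H, m • x = 0 → σ • x = x

/-- clause `frob`: the Eichler–Shimura relation `δ_ℓ τ² − T_ℓ τ + ℓ = 0` on `JH L M H [m]`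
for a Frobenius `τ` at a place over `ℓ ∤ L m`; `T_ℓ = es1hHecke L M H ℓ` (push-pull along
`β`, `α`), `δ_ℓ` any automorphism with `IsDiamondH L M H c δ`, `c ≡ ℓ` mod `M`. -/
def StmtFrobH : Prop :=
  ∀ (L M : ℕ) (H : Subgroup (ZMod M)ˣ) (m : ℕ), L ≠ 0 → M ∣ L →
    ∀ (ℓ : ℕ) [NeZero ℓ], ℓ.Prime → ¬ ℓ ∣ L * m → Es1hFin L M H → Es1hFin (L * ℓ) M H →
      ∀ c : (ZMod M)ˣ, (c : ZMod M) = (ℓ : ZMod M) →
      ∀ δ : fieldBar L M H ≃ₐ[QbH] fieldBar L M H, IsDiamondH L M H c δ →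
        ∀ A : ValuationSubring QbH, A.LiesOverPrime ℓ →
          ∀ τ : QbH ≃ₐ[ℚ] QbH, A.IsFrobeniusAt τ ℓ →
            ∀ x : JH L M H, m • x = 0 →
              diamondJ δ (τ • τ • x) - es1hHecke L M H ℓ (τ • x) + ℓ • x = 0

end Fermat.Agent.ES1.G2
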