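/-
ES₁ / G2, piece HN (helper81): the Hecke norm with diamond at level `(L; M, H)`, from the
Atkin–Lehner swap (`StmtSwapH`) and the degree (`StmtDegH`), by the generic core `hnD_norm`.

* `es1hn_J_coeff`, `es1hn_J_fixed` : `j ∈ fieldBar L M H` has coefficient `1` at `q⁻¹` and is
  fixed by every diamond;
* `es1hn_norm_of_swap_of_deg` : the norm formula from a swap `w` and the degree `ℓ + 1`;
* `stmtHeckeNormH_of_swap_of_deg : StmtSwapH → StmtDegH → StmtHeckeNormH`.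
-/
import Fermat.Agent.ES1.G2.Plan
import Fermat.Agent.ES1.G2.HNCoreD

set_option autoImplicit false
set_option linter.unusedSectionVars false

noncomputable section

namespace Fermat.Agent.ES1.G2

open ModularCurve AlgebraicCurve Fermat.Agent.ES Fermat.Agent.ES.G2 Fermat.Agent.ES1

variable (L M : ℕ) (H : Subgroup (ZMod M)ˣ)

/-- the coefficient of `q⁻¹` of `j` is `1` -/
theorem es1hn_J_coeff :
    ((es1hJ L M H : fieldBar L M H) : LaurentSeries QbH).coeff (-1) = 1 :=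
  hn_jBar_coeff

/-- `j = j(q^1)` as a Laurent series over `ℚ̄` -/
theorem es1hn_J_eq :
    ((es1hJ L M H : fieldBar L M H) : LaurentSeries QbH) = qExpand QbH 1 (jqModC QbH) := by
  rw [qExpand_one_apply, coe_es1hJ, Fermat.Agent.S24.jBar, coeffEmb]
  exact coeffMap_jqModC _

/-- every diamond fixes `j` -/
theorem es1hn_J_fixed {c : (ZMod M)ˣ}
    {δ : fieldBar L M H ≃ₐ[QbH] fieldBar L M H} (hδ : IsDiamondH L M H c δ) :
    δ (es1hJ L M H) = es1hJ L M H :=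
  hδ.fix_j 1 (one_dvd L) (es1hJ L M H) (es1hn_J_eq L M H)

/-- **HN at level `(L; M, H)`**, from a swap and the degree. -/
theorem es1hn_norm_of_swap_of_deg (ℓ : ℕ) [NeZero ℓ] (hℓ : ℓ.Prime)
    {c : (ZMod M)ˣ} (δ : fieldBar L M H ≃ₐ[QbH] fieldBar L M H) (hδ : IsDiamondH L M H c δ)
    (w : fieldBar (L * ℓ) M H →+* fieldBar (L * ℓ) M H)
    (hwα : ∀ x, w (es1hAlpha L M H ℓ x) = es1hBeta L M H ℓ x)
    (hwβ : ∀ x, w (es1hBeta L M H ℓ x) = es1hAlpha L M H ℓ (δ x))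
    (hdeg : @Module.finrank (fieldBar L M H) (fieldBar (L * ℓ) M H) _ _
      (@Algebra.toModule _ _ _ _ (es1hAlpha L M H ℓ).toAlgebra) = ℓ + 1)
    (ζ : QbHˣ) (hζ : IsPrimitiveRoot ζ ℓ) (v : fieldBar L M H) :
    ((@Algebra.norm (fieldBar L M H) (fieldBar (L * ℓ) M H) _ _
        (es1hAlpha L M H ℓ).toAlgebra (es1hBeta L M H ℓ v) : fieldBar L M H) :
          LaurentSeries QbH) =
      kronHeckeD ℓ ζ (v : LaurentSeries QbH) ((δ v : fieldBar L M H) : LaurentSeries QbH) :=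
  hnD_norm (F := fieldBar L M H) (F' := fieldBar (L * ℓ) M H) ℓ
    (es1hAlpha L M H ℓ : fieldBar L M H →+* fieldBar (L * ℓ) M H)
    (es1hBeta L M H ℓ : fieldBar L M H →+* fieldBar (L * ℓ) M H)
    (fun x => coe_es1hAlpha L M H ℓ x) (fun x => coe_es1hBeta L M H ℓ x)
    (δ : fieldBar L M H →+* fieldBar L M H) w hℓ hwα hwβ hdeg
    (es1hJ L M H) (es1hn_J_coeff L M H) (es1hn_J_fixed L M H hδ) ζ hζ v

/-- **Piece HN.** -/
theorem stmtHeckeNormH_of_swap_of_deg (hswap : StmtSwapH) (hdeg : StmtDegH) : StmtHeckeNormH := by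
  intro L M H ℓ _ hL hML hℓ hℓL c hc δ hδ ζ hζ v
  obtain ⟨w, hwα, hwβ⟩ := hswap L M H ℓ hL hML hℓ hℓL c hc δ hδ
  exact es1hn_norm_of_swap_of_deg L M H ℓ hℓ δ hδ w hwα hwβ (hdeg L M H ℓ hL hML hℓ hℓL)
    ζ hζ v

end Fermat.Agent.ES1.G2
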