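/-
ES₁ / G2, piece DEG (helper81): `[fieldBar (L ℓ) M H : fieldBar L M H] = ℓ + 1` along `α`.

* `stmtDegH_of_relDeg : ES1.StmtRelDegH → StmtDegH` (from `dlh_relfinrank`, helper83, and the
  inclusion lemma `hdeg_finrank_inclusion` of ES₀);
* `stmtDegH_of_diamond : ES1.StmtDiamondH → StmtDegH`;
* `stmtHeckeNormH_of_swap_of_relDeg`, `stmtHeckeNormH_of_swap_of_diamond`.
-/
import Fermat.Agent.ES1.G2.HeckeNormH
import Fermat.Agent.ES1.DescentLevelH

set_option autoImplicit false

noncomputable section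

namespace Fermat.Agent.ES1.G2

open ModularCurve AlgebraicCurve Fermat.Agent.ES Fermat.Agent.ES.G2 Fermat.Agent.ES1

/-- **Piece DEG**, from the relative degree over the `Γ₀`-fields. -/
theorem stmtDegH_of_relDeg (hdeg : StmtRelDegH) : StmtDegH := by
  intro L M H ℓ _ hL hML hℓ hℓL
  have h := hdeg_finrank_inclusion (es1h_fieldBar_mono M H (dvd_mul_right L ℓ))
  rw [dlh_relfinrank hdeg L M H ℓ hL hML hℓ hℓL] at h
  exact h

/-- **Piece DEG**, from the diamonds (piece F3-conj). -/
theorem stmtDegH_of_diamond (hD : StmtDiamondH) : StmtDegH :=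
  stmtDegH_of_relDeg (stmtRelDegH_of_diamond hD)

/-- HN from SWAP and the relative degree. -/
theorem stmtHeckeNormH_of_swap_of_relDeg (hswap : StmtSwapH) (hdeg : StmtRelDegH) :
    StmtHeckeNormH :=
  stmtHeckeNormH_of_swap_of_deg hswap (stmtDegH_of_relDeg hdeg)

/-- HN from SWAP and the diamonds. -/
theorem stmtHeckeNormH_of_swap_of_diamond (hswap : StmtSwapH) (hD : StmtDiamondH) :
    StmtHeckeNormH :=
  stmtHeckeNormH_of_swap_of_deg hswap (stmtDegH_of_diamond hD)

end Fermat.Agent.ES1.G2
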