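import Fermat.Agent.ES1.G2.Plan

/-!
# ES₁ / G2, bridge: the target `ES1.StmtINJHAll` of INJ₁ gives `StmtInjPrimeH`

`StmtINJH` is stated with series over `A`, `StmtInjPrimeH` with the predicates `KronPrim`,
`KronCongr` of `ES/Kronecker.lean` (fork of `ES/G2/InjBridge.lean`).
-/

set_option autoImplicit false

noncomputable section

namespace Fermat.Agent.ES1.G2

open ModularCurve AlgebraicCurve Fermat.Agent.ES Fermat.Agent.ES1

/-- the form of (INJ) consumed by G2, for one field and one exponent, from the `A`-series form -/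
theorem injAt_of_series {A : ValuationSubring QbH}
    {F : IntermediateField QbH (LaurentSeries QbH)} {p : ℕ}
    (h : ∀ (Y₁ Y₂ : LaurentSeries A) (h₁ : coeffMap A.subtype Y₁ ∈ F)
      (h₂ : coeffMap A.subtype Y₂ ∈ F),
      coeffMap (IsLocalRing.residue A) Y₁ = coeffMap (IsLocalRing.residue A) Y₂ →
      coeffMap (IsLocalRing.residue A) Y₂ ≠ 0 →
      (∀ P : Place QbH F,
        (p : ℤ) ∣ P.ord (⟨coeffMap A.subtype Y₁, h₁⟩ : F)
          - P.ord (⟨coeffMap A.subtype Y₂, h₂⟩ : F)) →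
      ∃ w : F, w ^ p * (⟨coeffMap A.subtype Y₂, h₂⟩ : F) = ⟨coeffMap A.subtype Y₁, h₁⟩) :
    InjAt A F p := by
  intro u hu hred hord
  obtain ⟨y₁, y₂, hy₁, hy₂, hp₁, hp₂, hc, huy⟩ := hred
  obtain ⟨Y₁, rfl⟩ := hp₁.1.exists_lift
  obtain ⟨Y₂, rfl⟩ := hp₂.1.exists_lift
  have hne₂ : kronRed A Y₂ ≠ 0 := (kronPrim_kronIncl_iff Y₂).1 hp₂
  have heq : kronRed A Y₁ = kronRed A Y₂ := (kronCongr_kronIncl_iff Y₁ Y₂).1 hc
  have hY₂ne : (⟨kronIncl A Y₂, hy₂⟩ : F) ≠ 0 := by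
    intro h0
    apply hne₂
    have h1 : kronIncl A Y₂ = 0 := congrArg Subtype.val h0
    have h2 : Y₂ = 0 := by
      ext n
      have := congrArg (fun g : LaurentSeries QbH => g.coeff n) h1
      simpa [kronIncl, coeffMap_coeff] using this
    rw [h2, kronRed, map_zero]
  have hmul : u * (⟨kronIncl A Y₂, hy₂⟩ : F) = ⟨kronIncl A Y₁, hy₁⟩ :=
    Subtype.ext huy
  obtain ⟨w, hw⟩ := h Y₁ Y₂ hy₁ hy₂ heq hne₂
    (fun P => by
      have h1 := P.ord_mul hu hY₂ne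
      rw [hmul] at h1
      have h2 := hord P
      have : P.ord (⟨kronIncl A Y₁, hy₁⟩ : F) - P.ord (⟨kronIncl A Y₂, hy₂⟩ : F) = P.ord u := by
        rw [h1]; ring
      show (p : ℤ) ∣ P.ord (⟨kronIncl A Y₁, hy₁⟩ : F) - P.ord (⟨kronIncl A Y₂, hy₂⟩ : F)
      rw [this]
      exact h2)
  refine ⟨w, ?_⟩
  have h3 : w ^ p * (⟨kronIncl A Y₂, hy₂⟩ : F) = u * (⟨kronIncl A Y₂, hy₂⟩ : F) := by
    rw [hmul]; exact hw
  exact mul_right_cancel₀ hY₂ne h3

/-- **INJ-bridge.** -/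
theorem stmtInjPrimeH_of_stmtINJHAll (h : Fermat.Agent.ES1.StmtINJHAll) : StmtInjPrimeH := by
  intro L M H ℓ p hL hML hℓ hp hℓL hℓp A hA
  exact injAt_of_series (h L M H ℓ p hL hML hℓ hp hℓL hℓp A hA)

end Fermat.Agent.ES1.G2
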