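/-
ES₁ / G2, piece PRIM (helper81): every `u ≠ 0` of `fieldBar L M H` is `c · y₁ / y₂` with `c ∈ ℚ̄^×`
and `y₁, y₂ ∈ fieldBar L M H` primitive `A`-integral Laurent series.

Generic form (`es1prim_adjoin`): the same for `ℚ̄(g_i : i ∈ ι)`, any family of Laurent series `g_i`
with INTEGER coefficients.  (Fork of `ES/G2/Prim.lean`, helper32.)
-/
import Fermat.Agent.ES.G2.Prim
import Fermat.Agent.ES1.Formal

set_option autoImplicit false

noncomputable section

namespace Fermat.Agent.ES1.G2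

open ModularCurve AlgebraicCurve Fermat.Agent.ES Fermat.Agent.ES.G2

section Generic

variable {ι : Type*} (g : ι → LaurentSeries Qb)

/-- the `q`-coefficients of `P(g_i)` lie in the `ℤ`-span of the coefficients of `P` -/
theorem es1prim_coeff_aeval_mem (hg : ∀ i, g i ∈ primIntSeries) (P : MvPolynomial ι Qb)
    (n : ℤ) :
    (MvPolynomial.aeval g P).coeff n ∈ Submodule.span ℤ (P.coeffs : Set Qb) := by
  classical
  rw [show MvPolynomial.aeval g P =
      ∑ α ∈ P.support, MvPolynomial.aeval g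
        (MvPolynomial.monomial α (MvPolynomial.coeff α P)) by
    conv_lhs => rw [P.as_sum, map_sum]]
  rw [HahnSeries.coeff_sum]
  refine Submodule.sum_mem _ fun α hα => ?_
  rw [MvPolynomial.aeval_monomial]
  have h1 : (α.prod fun i k => g i ^ k) ∈ primIntSeries :=
    Subring.prod_mem _ fun i _ => Subring.pow_mem _ (hg i) _
  refine Submodule.span_mono ?_ (prim_coeff_mul_mem _ h1 n)
  rintro x rfl
  exact Finset.mem_coe.2 (MvPolynomial.coeff_mem_coeffs α (MvPolynomial.mem_support_iff.1 hα))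

/-- a nonzero element of `ℚ̄[g_i]` is a constant times a primitive integral series -/
theorem es1prim_exists_primitive (hg : ∀ i, g i ∈ primIntSeries) (A : ValuationSubring Qb)
    (P : MvPolynomial ι Qb) (hP : MvPolynomial.aeval g P ≠ 0) :
    ∃ (s : Qb) (y : LaurentSeries Qb), s ≠ 0 ∧
      y ∈ IntermediateField.adjoin Qb (Set.range g) ∧ KronPrim A y ∧
      MvPolynomial.aeval g P = HahnSeries.C s * y := by
  set yP := MvPolynomial.aeval g P with hyP
  set S : Set Qb := {x | x ≠ 0 ∧ ∃ n : ℤ, yP.coeff n = x} with hS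
  have hne : S.Nonempty := by
    by_contra hcon
    apply hP
    ext n
    by_contra h
    exact hcon ⟨yP.coeff n, h, n, rfl⟩
  obtain ⟨s₀, ⟨hs₀0, n₀, hn₀⟩, hmin⟩ := exists_min_of_mem_span A P.coeffs S hne (fun s hs => hs.1)
    (by rintro s ⟨-, n, rfl⟩; exact es1prim_coeff_aeval_mem g hg P n)
  have hmem : yP ∈ IntermediateField.adjoin Qb (Set.range g) := by
    have : yP ∈ Algebra.adjoin Qb (Set.range g) := by
      rw [Algebra.adjoin_range_eq_range_aeval]; exact ⟨P, rfl⟩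
    exact IntermediateField.algebra_adjoin_le_adjoin _ _ this
  refine ⟨s₀, HahnSeries.C s₀⁻¹ * yP, hs₀0, ?_, ⟨?_, n₀, ?_⟩, ?_⟩
  · refine mul_mem ?_ hmem
    rw [← LaurentSeries.algebraMap_apply]
    exact IntermediateField.algebraMap_mem _ _
  · intro n
    rw [HahnSeries.C_mul_eq_smul, HahnSeries.coeff_smul, smul_eq_mul]
    by_cases h : yP.coeff n = 0
    · rw [h, mul_zero]; exact A.zero_mem
    · have := hmin _ ⟨h, n, rfl⟩
      rwa [div_eq_inv_mul] at this
  · rw [HahnSeries.C_mul_eq_smul, HahnSeries.coeff_smul, smul_eq_mul, hn₀, inv_mul_cancel₀ hs₀0]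
    intro h
    rw [ValuationSubring.mem_nonunits_iff, map_one] at h
    exact lt_irrefl _ h
  · rw [← mul_assoc, ← map_mul, mul_inv_cancel₀ hs₀0, map_one, one_mul]

/-- **PRIM, generic form**: in `ℚ̄(g_i)`, `g_i` with integer coefficients, every `u ≠ 0` is
`c · y₁ / y₂` with `y₁`, `y₂` primitive `A`-integral. -/
theorem es1prim_adjoin (hg : ∀ i, g i ∈ primIntSeries) (A : ValuationSubring Qb)
    (u : LaurentSeries Qb) (hu : u ∈ IntermediateField.adjoin Qb (Set.range g)) (hu0 : u ≠ 0) :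
    ∃ (c : Qb) (y₁ y₂ : LaurentSeries Qb), c ≠ 0 ∧
      y₁ ∈ IntermediateField.adjoin Qb (Set.range g) ∧
      y₂ ∈ IntermediateField.adjoin Qb (Set.range g) ∧
        KronPrim A y₁ ∧ KronPrim A y₂ ∧ u * y₂ = HahnSeries.C c * y₁ := by
  obtain ⟨P, Q, hPQ⟩ := (IntermediateField.mem_adjoin_range_iff Qb _ _).1 hu
  have hQ0 : MvPolynomial.aeval g Q ≠ 0 := by
    intro h; rw [h, div_zero] at hPQ; exact hu0 hPQ
  have hP0 : MvPolynomial.aeval g P ≠ 0 := by
    intro h; rw [h, zero_div] at hPQ; exact hu0 hPQ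
  obtain ⟨s₁, y₁, hs₁, hy₁m, hy₁, hP⟩ := es1prim_exists_primitive g hg A P hP0
  obtain ⟨s₂, y₂, hs₂, hy₂m, hy₂, hQ⟩ := es1prim_exists_primitive g hg A Q hQ0
  refine ⟨s₁ * s₂⁻¹, y₁, y₂, mul_ne_zero hs₁ (inv_ne_zero hs₂), hy₁m, hy₂m, hy₁, hy₂, ?_⟩
  have h1 : u * MvPolynomial.aeval g Q = MvPolynomial.aeval g P := by
    rw [hPQ, div_mul_cancel₀ _ hQ0]
  rw [hP, hQ] at h1
  have hC : (HahnSeries.C s₂ : LaurentSeries Qb) ≠ 0 := by
    intro h
    apply hs₂
    have := congrArg (fun f : LaurentSeries Qb => f.coeff 0) h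
    simpa using this
  have h2 : HahnSeries.C s₂ * (u * y₂) =
      HahnSeries.C s₂ * (HahnSeries.C (s₁ * s₂⁻¹) * y₁) := by
    calc HahnSeries.C s₂ * (u * y₂)
        = u * (HahnSeries.C s₂ * y₂) := by ring
      _ = HahnSeries.C s₁ * y₁ := h1
      _ = HahnSeries.C s₂ * (HahnSeries.C (s₁ * s₂⁻¹) * y₁) := by
        rw [← mul_assoc, ← map_mul]
        congr 2
        field_simp
  exact mul_left_cancel₀ hC h2

end Generic

/-! ## The field of `X_H(L; M)` -/

variable (L M : ℕ) (H : Subgroup (ZMod M)ˣ)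

/-- the generators of `fieldC ℚ̄ L M H` have integer coefficients -/
theorem es1prim_gen_mem {x : LaurentSeries Qb}
    (hx : x ∈ divisorExpansionsC Qb L ∪ diamondExpansionsC Qb L M H) : x ∈ primIntSeries := by
  rcases hx with ⟨d, hd, -, rfl⟩ | ⟨e, he, a, -, rfl⟩
  · refine ⟨qExpand ℤ d (jqModC ℤ), ?_⟩
    rw [coeffMap_qExpand, coeffMap_jqModC]
  · refine ⟨qExpand ℤ e (sZ M H a), ?_⟩
    rw [coeffMap_qExpand]
    rfl

/-- **PRIM** for `fieldC ℚ̄ L M H` -/
theorem es1prim_fieldC (A : ValuationSubring Qb) (u : LaurentSeries Qb)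
    (hu : u ∈ fieldC Qb L M H) (hu0 : u ≠ 0) :
    ∃ (c : Qb) (y₁ y₂ : LaurentSeries Qb), c ≠ 0 ∧
      y₁ ∈ fieldC Qb L M H ∧ y₂ ∈ fieldC Qb L M H ∧
        KronPrim A y₁ ∧ KronPrim A y₂ ∧ u * y₂ = HahnSeries.C c * y₁ := by
  have hrange : Set.range (fun x : ↥(divisorExpansionsC Qb L ∪ diamondExpansionsC Qb L M H) =>
      (x : LaurentSeries Qb)) = divisorExpansionsC Qb L ∪ diamondExpansionsC Qb L M H :=
    Subtype.range_coe
  have key := es1prim_adjoin
    (fun x : ↥(divisorExpansionsC Qb L ∪ diamondExpansionsC Qb L M H) => (x : LaurentSeries Qb))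
    (fun x => es1prim_gen_mem L M H x.2) A u (by rw [hrange]; exact hu) hu0
  rw [hrange] at key
  exact key

/-- **PRIM** for `fieldBar L M H` -/
theorem es1prim_fieldBar (A : ValuationSubring Qb) (u : fieldBar L M H) (hu : u ≠ 0) :
    ∃ (c : Qb) (y₁ y₂ : LaurentSeries Qb), c ≠ 0 ∧
      y₁ ∈ fieldBar L M H ∧ y₂ ∈ fieldBar L M H ∧
        KronPrim A y₁ ∧ KronPrim A y₂ ∧
          (u : LaurentSeries Qb) * y₂ = HahnSeries.C c * y₁ := by
  have hu0 : (u : LaurentSeries Qb) ≠ 0 := fun h => hu (Subtype.ext h)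
  have hmem : (u : LaurentSeries Qb) ∈ fieldC Qb L M H := by
    rw [← es1f_fieldBar_eq]; exact u.2
  obtain ⟨c, y₁, y₂, hc, h1, h2, h3, h4, h5⟩ := es1prim_fieldC L M H A _ hmem hu0
  rw [← es1f_fieldBar_eq] at h1 h2
  exact ⟨c, y₁, y₂, hc, h1, h2, h3, h4, h5⟩

end Fermat.Agent.ES1.G2
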