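import Fermat.Agent.ES1.G2.FrobMain
import Fermat.Agent.ES1.G2.InjBridgeH
import Fermat.Agent.ES1.G2.PrimH
import Fermat.Agent.ES1.G2.DegH

/-!
# ES₁ / G2: assembly

The two clauses of the Eichler–Shimura package for `JH L M H` delivered by G2:

* `es1g2_unram : ES1.StmtINJHAll → StmtUnramH`;
* `es1g2_frob  : ES1.StmtINJHAll → StmtSwapH → ES1.StmtDiamondH → StmtFrobH`
  (`δ_ℓ τ² x − T_ℓ τ x + ℓ x = 0`, `T_ℓ = es1hHecke L M H ℓ`).

Open inputs: `ES1.StmtINJHAll` (INJ₁), `StmtSwapH` (SWAP), `ES1.StmtDiamondH` (F3-conj).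
-/

set_option autoImplicit false

namespace Fermat.Agent.ES1.G2

open Fermat.Agent.ES1

/-- piece `PRIM` (helper81) as a term of `StmtPrimH` -/
theorem stmtPrimH : StmtPrimH := fun L M H A u hu => es1prim_fieldBar L M H A u hu

/-- (INJ) for all exponents prime to `ℓ`, from the target of INJ₁ -/
theorem stmtInjH_of_stmtINJHAll (h : StmtINJHAll) : StmtInjH :=
  stmtInjH_of_prime stmtPrimH (stmtInjPrimeH_of_stmtINJHAll h)

/-- clause `unram` for `JH L M H`, from the target of INJ₁ -/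
theorem es1g2_unram (h : StmtINJHAll) : StmtUnramH :=
  stmtUnramH_of_inj stmtPrimH (stmtInjH_of_stmtINJHAll h)

/-- clause `frob` for `JH L M H`, from the target of INJ₁ and the norm formula -/
theorem es1g2_frob_of_hn (h : StmtINJHAll) (hHN : StmtHeckeNormH) : StmtFrobH :=
  stmtFrobH_of_inj stmtPrimH (stmtInjH_of_stmtINJHAll h) hHN

/-- clause `frob` for `JH L M H`, from INJ₁, SWAP and F3-conj -/
theorem es1g2_frob (h : StmtINJHAll) (hswap : StmtSwapH) (hD : StmtDiamondH) : StmtFrobH :=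
  es1g2_frob_of_hn h (stmtHeckeNormH_of_swap_of_diamond hswap hD)

end Fermat.Agent.ES1.G2
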