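import Fermat.Agent.ES1.G2.SwapHBridge
import Fermat.Agent.ES1.G2.Plan

/-!
# ES₁ / G2, piece SWAP (helper40): `stmtSwapH : StmtSwapH`

The Atkin–Lehner endomorphism `w` of `fieldBar (L ℓ) M H` (`ℓ` prime, `ℓ ∤ L`):
`j(q^d) ↦ j(q^{dℓ})`, `j(q^{dℓ}) ↦ j(q^d)`, `S_a(q^e) ↦ S_a(q^{eℓ})`, `S_a(q^{eℓ}) ↦ S_{aℓ}(q^e)`
(`d ∣ L`, `e M ∣ L`), so that `w ∘ α = β` and `w ∘ β = α ∘ δ_ℓ`.  It is the substitution
`τ ↦ W τ = [[1, k], [L, ℓ w₀]] • (ℓ τ)` (`SwapHAn.lean`), transported to `q`-expansions by the bridge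
(`SwapHBridge.lean`).
-/

set_option autoImplicit false
set_option linter.style.haveILetI false

noncomputable section

namespace Fermat.Agent.ES1.G2

open UpperHalfPlane ModularCurve Fermat.Agent.S23 Fermat.Agent.S24 Fermat.Agent.S28
open Fermat.Agent.ES1

/-- the index set of the generators of `fieldBar N M H`: `d ∣ N`, resp. `(e, a)` with `e M ∣ N` -/
abbrev SwhIx (N M : ℕ) : Type := {d : ℕ // d ∣ N} ⊕ {p : ℕ × (ZMod M)ˣ // p.1 * M ∣ N}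

section Families

variable (N M : ℕ) [NeZero N] (H : Subgroup (ZMod M)ˣ)

theorem swh_neZero_of_dvd {d : ℕ} (hd : d ∣ N) : NeZero d :=
  ⟨ne_zero_of_dvd_ne_zero (NeZero.ne N) hd⟩

theorem swh_neZero_of_mul_dvd {e : ℕ} (he : e * M ∣ N) : NeZero e :=
  ⟨ne_zero_of_dvd_ne_zero (NeZero.ne N) ((dvd_mul_right e M).trans he)⟩

/-- the formal generators `j(q^d)`, `S_a(q^e)` -/
def swhB : SwhIx N M → LaurentSeries Kb
  | Sum.inl d => haveI := swh_neZero_of_dvd N d.2; qExpand Kb d.1 (jqModC Kb)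
  | Sum.inr p => haveI := swh_neZero_of_mul_dvd N M p.2; qExpand Kb p.1.1 (sS Kb M H p.1.2)

/-- the analytic generators `J(dτ)`, `θ_a(eτ)` -/
def swhA : SwhIx N M → ℍ → ℂ
  | Sum.inl d => haveI := swh_neZero_of_dvd N d.2; fun z => Jfun (scaleN d.1 z)
  | Sum.inr p => haveI := swh_neZero_of_mul_dvd N M p.2; es1rcThetaE p.1.1 H p.1.2

theorem swhB_inl (d : ℕ) [NeZero d] (hd : d ∣ N) :
    swhB N M H (Sum.inl ⟨d, hd⟩) = qExpand Kb d (jqModC Kb) := rfl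

theorem swhB_inr (e : ℕ) [NeZero e] (a : (ZMod M)ˣ) (he : e * M ∣ N) :
    swhB N M H (Sum.inr ⟨(e, a), he⟩) = qExpand Kb e (sS Kb M H a) := rfl

theorem swhB_inl_congr {d' : ℕ} (d : ℕ) [NeZero d] (hd' : d' ∣ N) (h : d' = d) :
    swhB N M H (Sum.inl ⟨d', hd'⟩) = qExpand Kb d (jqModC Kb) := by
  subst h; rfl

theorem swhB_inr_congr {e' : ℕ} (e : ℕ) [NeZero e] (a : (ZMod M)ˣ) (he' : e' * M ∣ N)
    (h : e' = e) :
    swhB N M H (Sum.inr ⟨(e', a), he'⟩) = qExpand Kb e (sS Kb M H a) := by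
  subst h; rfl

theorem swhA_inl (d : ℕ) [NeZero d] (hd : d ∣ N) (z : ℍ) :
    swhA N M H (Sum.inl ⟨d, hd⟩) z = Jfun (scaleN d z) := rfl

theorem swhA_inr (e : ℕ) [NeZero e] (a : (ZMod M)ˣ) (he : e * M ∣ N) (z : ℍ) :
    swhA N M H (Sum.inr ⟨(e, a), he⟩) z = es1rcThetaE e H a z := rfl

theorem swhA_inl_congr {d' : ℕ} (d : ℕ) [NeZero d] (hd' : d' ∣ N) (h : d' = d) (z : ℍ) :
    swhA N M H (Sum.inl ⟨d', hd'⟩) z = Jfun (scaleN d z) := by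
  subst h; rfl

theorem swhA_inr_congr {e' : ℕ} (e : ℕ) [NeZero e] (a : (ZMod M)ˣ) (he' : e' * M ∣ N)
    (h : e' = e) (z : ℍ) :
    swhA N M H (Sum.inr ⟨(e', a), he'⟩) z = es1rcThetaE e H a z := by
  subst h; rfl

theorem swhA_isMerInf [NeZero M] (i : SwhIx N M) : IsMerInf (swhA N M H i) := by
  rcases i with ⟨d, hd⟩ | ⟨⟨e, a⟩, he⟩
  · haveI := swh_neZero_of_dvd N hd
    exact isMerInf_comp_scaleN d isMerInf_Jfun
  · haveI := swh_neZero_of_mul_dvd N M he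
    exact es1rcThetaE_isMerInf H a e

theorem swh_laurentOf [NeZero M] (i : SwhIx N M) :
    laurentOf (swhA N M H i) = coeffMap embC (swhB N M H i) := by
  rcases i with ⟨d, hd⟩ | ⟨⟨e, a⟩, he⟩
  · haveI := swh_neZero_of_dvd N hd
    have h1 : laurentOf (swhA N M H (Sum.inl ⟨d, hd⟩)) = jqNModC ℂ d := laurentOf_Jfun_scaleN d
    rw [h1, swhB_inl]
    exact (coeffMap_jqNModC embC d).symm
  · haveI := swh_neZero_of_mul_dvd N M he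
    have h1 : laurentOf (swhA N M H (Sum.inr ⟨(e, a), he⟩)) = qExpand ℂ e (sS ℂ M H a) :=
      laurentOf_es1rcThetaE H a e
    rw [h1, swhB_inr]
    exact (es1f_coeffMap_qExpand_sS embC M H a e).symm

theorem swh_range :
    Set.range (swhB N M H) = divisorExpansionsC Kb N ∪ diamondExpansionsC Kb N M H := by
  ext x
  constructor
  · rintro ⟨i, rfl⟩
    rcases i with ⟨d, hd⟩ | ⟨⟨e, a⟩, he⟩
    · exact Or.inl ⟨d, swh_neZero_of_dvd N hd, hd, rfl⟩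
    · exact Or.inr ⟨e, swh_neZero_of_mul_dvd N M he, a, he, rfl⟩
  · rintro (⟨d, hne, hd, rfl⟩ | ⟨e, hne, a, he, rfl⟩)
    · exact ⟨Sum.inl ⟨d, hd⟩, rfl⟩
    · exact ⟨Sum.inr ⟨(e, a), he⟩, rfl⟩

theorem swh_fieldBar_eq :
    fieldBar N M H = IntermediateField.adjoin Kb (Set.range (swhB N M H)) := by
  rw [es1f_fieldBar_eq, swh_range]
  rfl

theorem swh_fieldBar_eq' (L : ℕ) :
    fieldBar L M H = IntermediateField.adjoin Kb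
      (divisorExpansionsC Kb L ∪ diamondExpansionsC Kb L M H) := by
  rw [es1f_fieldBar_eq]
  rfl

end Families

/-! ### The swap of the indices -/

section Swap

variable (L M ℓ : ℕ) (c : (ZMod M)ˣ) (hℓ : ℓ.Prime) (hℓM : ¬ ℓ ∣ M)

theorem swh_dvd_of_not_dvd {ℓ : ℕ} (hℓ : ℓ.Prime) {d L : ℕ} (hd : d ∣ L * ℓ) (h : ¬ ℓ ∣ d) :
    d ∣ L :=
  (Nat.Coprime.symm ((Nat.Prime.coprime_iff_not_dvd hℓ).mpr h)).dvd_of_dvd_mul_right hd

theorem swh_mul_dvd_of_not_dvd {ℓ : ℕ} (hℓ : ℓ.Prime) {M : ℕ} (hℓM : ¬ ℓ ∣ M) {e L : ℕ}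
    (he : e * M ∣ L * ℓ) (h : ¬ ℓ ∣ e) : e * M ∣ L :=
  swh_dvd_of_not_dvd hℓ he fun h1 => (hℓ.dvd_mul.mp h1).elim h hℓM

/-- the swap of the indices -/
def swhS : SwhIx (L * ℓ) M → SwhIx (L * ℓ) M
  | Sum.inl d =>
      if h : ℓ ∣ d.1 then Sum.inl ⟨d.1 / ℓ, (Nat.div_dvd_of_dvd h).trans d.2⟩
      else Sum.inl ⟨d.1 * ℓ, mul_dvd_mul_right (swh_dvd_of_not_dvd hℓ d.2 h) ℓ⟩
  | Sum.inr p =>
      if h : ℓ ∣ p.1.1 then
        Sum.inr ⟨(p.1.1 / ℓ, p.1.2 * c),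
          (mul_dvd_mul_right (Nat.div_dvd_of_dvd h) M).trans p.2⟩
      else
        Sum.inr ⟨(p.1.1 * ℓ, p.1.2), by
          have h1 := swh_mul_dvd_of_not_dvd hℓ hℓM p.2 h
          have h2 : p.1.1 * ℓ * M = p.1.1 * M * ℓ := by ring
          show p.1.1 * ℓ * M ∣ L * ℓ
          rw [h2]
          exact mul_dvd_mul_right h1 ℓ⟩

theorem swhS_inl_of_dvd (d : ℕ) (hd : d ∣ L * ℓ) (h : ℓ ∣ d) :
    swhS L M ℓ c hℓ hℓM (Sum.inl ⟨d, hd⟩) =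
      Sum.inl ⟨d / ℓ, (Nat.div_dvd_of_dvd h).trans hd⟩ := dif_pos h

theorem swhS_inl_of_not_dvd (d : ℕ) (hd : d ∣ L * ℓ) (h : ¬ ℓ ∣ d) :
    swhS L M ℓ c hℓ hℓM (Sum.inl ⟨d, hd⟩) =
      Sum.inl ⟨d * ℓ, mul_dvd_mul_right (swh_dvd_of_not_dvd hℓ hd h) ℓ⟩ := dif_neg h

theorem swhS_inr_of_dvd (e : ℕ) (a : (ZMod M)ˣ) (he : e * M ∣ L * ℓ) (h : ℓ ∣ e) :
    swhS L M ℓ c hℓ hℓM (Sum.inr ⟨(e, a), he⟩) =
      Sum.inr ⟨(e / ℓ, a * c), (mul_dvd_mul_right (Nat.div_dvd_of_dvd h) M).trans he⟩ :=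
  dif_pos h

theorem swhS_inr_of_not_dvd (e : ℕ) (a : (ZMod M)ˣ) (he : e * M ∣ L * ℓ) (h : ¬ ℓ ∣ e) :
    ∃ he' : e * ℓ * M ∣ L * ℓ,
      swhS L M ℓ c hℓ hℓM (Sum.inr ⟨(e, a), he⟩) = Sum.inr ⟨(e * ℓ, a), he'⟩ :=
  ⟨_, dif_neg h⟩

end Swap

theorem swh_scaleN_congr {a b : ℕ} [NeZero a] [NeZero b] (h : a = b) (z : ℍ) :
    scaleN a z = scaleN b z := by
  subst h; rfl

theorem swh_thetaE_congr {M : ℕ} (H : Subgroup (ZMod M)ˣ) (c : (ZMod M)ˣ) {a b : ℕ} [NeZero a]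
    [NeZero b] (h : a = b) (z : ℍ) : es1rcThetaE a H c z = es1rcThetaE b H c z := by
  subst h; rfl

/-- the analytic swap: `gA i (W τ) = gA (s i) τ` -/
theorem swh_analytic {L M ℓ : ℕ} [NeZero L] [NeZero M] [NeZero ℓ] [NeZero (L * ℓ)]
    (H : Subgroup (ZMod M)ˣ) (c : (ZMod M)ˣ) (hc : (c : ZMod M) = (ℓ : ZMod M))
    (hℓ : ℓ.Prime) (hℓM : ¬ ℓ ∣ M)
    (k w₀ : ℤ) (h : (ℓ : ℤ) * w₀ - k * (L : ℤ) = 1) (i : SwhIx (L * ℓ) M) (τ : ℍ) :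
    swhA (L * ℓ) M H i (swhW L ℓ k w₀ h τ) = swhA (L * ℓ) M H (swhS L M ℓ c hℓ hℓM i) τ := by
  have hℓ0 : ℓ ≠ 0 := NeZero.ne ℓ
  have hL0 : L ≠ 0 := NeZero.ne L
  rcases i with ⟨d, hd⟩ | ⟨⟨e, a⟩, he⟩
  · haveI := swh_neZero_of_dvd (L * ℓ) hd
    by_cases hdvd : ℓ ∣ d
    · rw [swhS_inl_of_dvd L M ℓ c hℓ hℓM d hd hdvd]
      have hd' : d / ℓ ∣ L := by
        obtain ⟨d', rfl⟩ := hdvd
        rw [Nat.mul_div_cancel_left d' (Nat.pos_of_ne_zero hℓ0)]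
        rw [mul_comm ℓ d'] at hd
        exact Nat.dvd_of_mul_dvd_mul_right (Nat.pos_of_ne_zero hℓ0) hd
      haveI : NeZero (d / ℓ) := ⟨ne_zero_of_dvd_ne_zero hL0 hd'⟩
      haveI : NeZero (d / ℓ * ℓ) := ⟨Nat.mul_ne_zero (NeZero.ne _) hℓ0⟩
      rw [swhA_inl, swhA_inl,
        swh_scaleN_congr (Nat.div_mul_cancel hdvd).symm (swhW L ℓ k w₀ h τ)]
      exact swh_J_W' hL0 k w₀ h (d / ℓ) hd' τ
    · rw [swhS_inl_of_not_dvd L M ℓ c hℓ hℓM d hd hdvd]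
      haveI : NeZero (d * ℓ) := ⟨Nat.mul_ne_zero (NeZero.ne _) hℓ0⟩
      rw [swhA_inl, swhA_inl]
      exact swh_J_W k w₀ h d (swh_dvd_of_not_dvd hℓ hd hdvd) τ
  · haveI := swh_neZero_of_mul_dvd (L * ℓ) M he
    by_cases hdvd : ℓ ∣ e
    · rw [swhS_inr_of_dvd L M ℓ c hℓ hℓM e a he hdvd]
      have he' : e / ℓ * M ∣ L := by
        obtain ⟨e', rfl⟩ := hdvd
        rw [Nat.mul_div_cancel_left e' (Nat.pos_of_ne_zero hℓ0)]
        have h2 : ℓ * e' * M = e' * M * ℓ := by ring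
        rw [h2] at he
        exact Nat.dvd_of_mul_dvd_mul_right (Nat.pos_of_ne_zero hℓ0) he
      haveI : NeZero (e / ℓ) :=
        ⟨ne_zero_of_dvd_ne_zero hL0 ((dvd_mul_right _ M).trans he')⟩
      haveI : NeZero (e / ℓ * ℓ) := ⟨Nat.mul_ne_zero (NeZero.ne _) hℓ0⟩
      rw [swhA_inr, swhA_inr,
        swh_thetaE_congr H a (Nat.div_mul_cancel hdvd).symm (swhW L ℓ k w₀ h τ)]
      exact swh_theta_W' H hL0 k w₀ h (e / ℓ) he' a c hc τ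
    · obtain ⟨he', hs⟩ := swhS_inr_of_not_dvd L M ℓ c hℓ hℓM e a he hdvd
      rw [hs]
      haveI : NeZero (e * ℓ) := ⟨Nat.mul_ne_zero (NeZero.ne _) hℓ0⟩
      rw [swhA_inr, swhA_inr]
      exact swh_theta_W H k w₀ h e (swh_mul_dvd_of_not_dvd hℓ hℓM he hdvd) a τ

/-- the Atkin–Lehner endomorphism on the generators -/
theorem swh_exists_gen {L M ℓ : ℕ} [NeZero L] [NeZero M] [NeZero ℓ] [NeZero (L * ℓ)]
    (H : Subgroup (ZMod M)ˣ) (c : (ZMod M)ˣ) (hc : (c : ZMod M) = (ℓ : ZMod M))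
    (hℓ : ℓ.Prime) (hℓM : ¬ ℓ ∣ M) (hℓL : ¬ ℓ ∣ L) :
    ∃ φ : fieldBar (L * ℓ) M H →ₐ[Kb] fieldBar (L * ℓ) M H,
      ∀ (i : SwhIx (L * ℓ) M) (hi : swhB (L * ℓ) M H i ∈ fieldBar (L * ℓ) M H),
        ((φ ⟨swhB (L * ℓ) M H i, hi⟩ : fieldBar (L * ℓ) M H) : LaurentSeries Kb) =
          swhB (L * ℓ) M H (swhS L M ℓ c hℓ hℓM i) := by
  have hcop : Nat.Coprime ℓ L := (Nat.Prime.coprime_iff_not_dvd hℓ).mpr hℓL
  obtain ⟨u, v, huv⟩ := Nat.Coprime.isCoprime hcop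
  have hdet : (ℓ : ℤ) * u - (-v) * (L : ℤ) = 1 := by linear_combination huv
  exact swh_exists_algHom (fieldBar (L * ℓ) M H) (swhA (L * ℓ) M H) (swhB (L * ℓ) M H)
    (swh_fieldBar_eq (L * ℓ) M H) (swhA_isMerInf (L * ℓ) M H) (swh_laurentOf (L * ℓ) M H)
    (swhS L M ℓ c hℓ hℓM) (swhW L ℓ (-v) u hdet) (swhW_surjective L ℓ (-v) u hdet)
    (swh_analytic H c hc hℓ hℓM (-v) u hdet)

/-- **piece SWAP**: the Atkin–Lehner endomorphism `w` of `fieldBar (L ℓ) M H` with `w ∘ α = β`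
and `w ∘ β = α ∘ δ_ℓ`. -/
theorem stmtSwapH : StmtSwapH := by
  intro L M H ℓ _ hL0 hML hℓ hℓL c hc δ hδ
  haveI : NeZero L := ⟨hL0⟩
  have hM0 : M ≠ 0 := ne_zero_of_dvd_ne_zero hL0 hML
  haveI : NeZero M := ⟨hM0⟩
  have hℓ0 : ℓ ≠ 0 := hℓ.ne_zero
  haveI : NeZero (L * ℓ) := ⟨Nat.mul_ne_zero hL0 hℓ0⟩
  have hℓM : ¬ ℓ ∣ M := fun h => hℓL (h.trans hML)
  obtain ⟨φ, hφ⟩ := swh_exists_gen H c hc hℓ hℓM hℓL
  have hmem : ∀ i, swhB (L * ℓ) M H i ∈ fieldBar (L * ℓ) M H := fun i => by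
    rw [swh_fieldBar_eq (L * ℓ) M H]
    exact IntermediateField.subset_adjoin Kb _ ⟨i, rfl⟩
  have h1 : φ.comp (es1hAlpha L M H ℓ) = es1hBeta L M H ℓ := by
    apply IntermediateField.algHom_ext_of_eq_adjoin Kb (swh_fieldBar_eq' M H L)
    rintro x (⟨d, hne, hd, rfl⟩ | ⟨e, hne, a, he, rfl⟩)
    · apply Subtype.ext
      have hd' : d ∣ L * ℓ := hd.trans (dvd_mul_right L ℓ)
      have hnd : ¬ ℓ ∣ d := fun h => hℓL (h.trans hd)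
      haveI : NeZero (d * ℓ) := ⟨Nat.mul_ne_zero (NeZero.ne d) hℓ0⟩
      have h2 : ((φ ⟨swhB (L * ℓ) M H (Sum.inl ⟨d, hd'⟩), hmem _⟩ : fieldBar (L * ℓ) M H) :
          LaurentSeries Kb) = qExpand Kb (d * ℓ) (jqModC Kb) := by
        rw [hφ, swhS_inl_of_not_dvd L M ℓ c hℓ hℓM d hd' hnd]
        rfl
      refine Eq.trans h2 ?_
      show _ = qExpand Kb ℓ (qExpand Kb d (jqModC Kb))
      rw [qExpand_qExpand]
      exact qExpand_congr (mul_comm d ℓ) _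
    · apply Subtype.ext
      have he' : e * M ∣ L * ℓ := he.trans (dvd_mul_right L ℓ)
      have hne' : ¬ ℓ ∣ e := fun h => hℓL ((h.trans (dvd_mul_right e M)).trans he)
      haveI : NeZero (e * ℓ) := ⟨Nat.mul_ne_zero (NeZero.ne e) hℓ0⟩
      obtain ⟨he'', hs⟩ := swhS_inr_of_not_dvd L M ℓ c hℓ hℓM e a he' hne'
      have h2 : ((φ ⟨swhB (L * ℓ) M H (Sum.inr ⟨(e, a), he'⟩), hmem _⟩ :
          fieldBar (L * ℓ) M H) : LaurentSeries Kb) = qExpand Kb (e * ℓ) (sS Kb M H a) := by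
        rw [hφ, hs]
        rfl
      refine Eq.trans h2 ?_
      show _ = qExpand Kb ℓ (qExpand Kb e (sS Kb M H a))
      rw [qExpand_qExpand]
      exact qExpand_congr (mul_comm e ℓ) _
  have h2 : φ.comp (es1hBeta L M H ℓ) = (es1hAlpha L M H ℓ).comp (δ : _ →ₐ[Kb] _) := by
    apply IntermediateField.algHom_ext_of_eq_adjoin Kb (swh_fieldBar_eq' M H L)
    rintro x (⟨d, hne, hd, rfl⟩ | ⟨e, hne, a, he, rfl⟩)
    · apply Subtype.ext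
      have hd' : d * ℓ ∣ L * ℓ := mul_dvd_mul_right hd ℓ
      haveI : NeZero (d * ℓ) := ⟨Nat.mul_ne_zero (NeZero.ne d) hℓ0⟩
      have h3 := hφ (Sum.inl ⟨d * ℓ, hd'⟩) (hmem _)
      rw [swhS_inl_of_dvd L M ℓ c hℓ hℓM (d * ℓ) hd' (dvd_mul_left ℓ d),
        swhB_inl_congr (L * ℓ) M H d _ (Nat.mul_div_cancel d (Nat.pos_of_ne_zero hℓ0))] at h3
      have hx : ∀ hx, es1hBeta L M H ℓ ⟨qExpand Kb d (jqModC Kb), hx⟩ =
          ⟨swhB (L * ℓ) M H (Sum.inl ⟨d * ℓ, hd'⟩), hmem _⟩ := by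
        intro hx
        apply Subtype.ext
        show qExpand Kb ℓ (qExpand Kb d (jqModC Kb)) = qExpand Kb (d * ℓ) (jqModC Kb)
        rw [qExpand_qExpand]
        exact qExpand_congr (mul_comm ℓ d) _
      rw [AlgHom.comp_apply, hx, h3, AlgHom.comp_apply, coe_es1hAlpha]
      exact (congrArg Subtype.val
        (hδ.fix_j d hd ⟨qExpand Kb d (jqModC Kb), _⟩ rfl)).symm
    · apply Subtype.ext
      have he' : e * ℓ * M ∣ L * ℓ := by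
        have : e * ℓ * M = e * M * ℓ := by ring
        rw [this]
        exact mul_dvd_mul_right he ℓ
      haveI : NeZero (e * ℓ) := ⟨Nat.mul_ne_zero (NeZero.ne e) hℓ0⟩
      have h3 := hφ (Sum.inr ⟨(e * ℓ, a), he'⟩) (hmem _)
      rw [swhS_inr_of_dvd L M ℓ c hℓ hℓM (e * ℓ) a he' (dvd_mul_left ℓ e),
        swhB_inr_congr (L * ℓ) M H e (a * c) _
          (Nat.mul_div_cancel e (Nat.pos_of_ne_zero hℓ0))] at h3
      have hx : ∀ hx, es1hBeta L M H ℓ ⟨qExpand Kb e (sS Kb M H a), hx⟩ =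
          ⟨swhB (L * ℓ) M H (Sum.inr ⟨(e * ℓ, a), he'⟩), hmem _⟩ := by
        intro hx
        apply Subtype.ext
        show qExpand Kb ℓ (qExpand Kb e (sS Kb M H a)) = qExpand Kb (e * ℓ) (sS Kb M H a)
        rw [qExpand_qExpand]
        exact qExpand_congr (mul_comm ℓ e) _
      rw [AlgHom.comp_apply, hx, h3, AlgHom.comp_apply, coe_es1hAlpha]
      exact (hδ.map_s e a he ⟨qExpand Kb e (sS Kb M H a), _⟩ rfl).symm
  refine ⟨φ.toRingHom, fun x => ?_, fun x => ?_⟩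
  · exact congrArg (fun f => f x) h1
  · exact congrArg (fun f => f x) h2

end Fermat.Agent.ES1.G2
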