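import Fermat.Agent.ES1.G2.Main
import Fermat.Agent.ES1.G2.DiamBar
import Fermat.Agent.ES1.TopBGalois

/-!
# ES₁ / G2: the clauses of TOP-b delivered by G2 (and the formal ones), for `J = JH L M H`

Operators: `es1g2T L M H ℓ = es1hHecke L M H ℓ` (`ℓ : Nat.Primes`), `es1Diamond L M H c`.
In the exact form of the hypotheses of `ES1.es1b_clauses_of_unif` (with `L = M`):

* `es1g2_clause_frob`, `es1g2_clause_unram` (G2);
* `es1g2_clause_galois_hecke`, `es1g2_clause_galois_diamond`, `es1g2_clause_finite_level`,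
  `es1g2_clause_diamond_one`, `es1g2_clause_diamond_mul` (formal; from helper42's `TopBGalois`
  and helper36's `DiamBar`).

Inputs: `ES1.StmtINJHAll` (INJ₁), `StmtSwapH` (SWAP), `ES1.StmtDiamondH` (F3-conj), and
`Es1hFin` at the levels `M`, `M ℓ` (finiteness over `ℚ̄(j)`).
-/

set_option autoImplicit false

noncomputable section

namespace Fermat.Agent.ES1.G2

open ModularCurve AlgebraicCurve Fermat.Agent.ES Fermat.Agent.ES1 Fermat.Agent.S48

/-- `T_ℓ` on `JH L M H`, indexed by the primes -/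
def es1g2T (L M : ℕ) (H : Subgroup (ZMod M)ˣ) (ℓ : Nat.Primes) : JH L M H →+ JH L M H :=
  haveI : NeZero (ℓ : ℕ) := ⟨ℓ.2.ne_zero⟩
  es1hHecke L M H ℓ

variable {L M : ℕ} {H : Subgroup (ZMod M)ˣ}

/-- clause `frob` -/
theorem es1g2_clause_frob (hINJ : StmtINJHAll) (hswap : StmtSwapH) (hD : StmtDiamondH)
    (hL : L ≠ 0) (hML : M ∣ L) (hfin : ∀ L' : ℕ, L' ≠ 0 → M ∣ L' → Es1hFin L' M H) (p : ℕ) :
    ∀ ℓ : ℕ, (hℓ : ℓ.Prime) → ¬ ℓ ∣ L * p →
      ∀ c : (ZMod M)ˣ, (c : ZMod M) = (ℓ : ZMod M) →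
      ∀ A : ValuationSubring (AlgebraicClosure ℚ), A.LiesOverPrime ℓ →
        ∀ τ : GalQ, A.IsFrobeniusAt τ ℓ →
          ∀ x : JH L M H, p • x = 0 →
            es1Diamond L M H c (τ • τ • x) - es1g2T L M H ⟨ℓ, hℓ⟩ (τ • x) + ℓ • x = 0 := by
  intro ℓ hℓ hgood c hc A hA τ hτ x hx
  haveI : NeZero ℓ := ⟨hℓ.ne_zero⟩
  obtain ⟨δ, hδ⟩ := stmtDiamondBarH_of_diamond hD L M H hL hML c
  rw [es1Diamond_eq hδ]
  exact es1g2_frob hINJ hswap hD L M H p hL hML ℓ hℓ hgood (hfin L hL hML)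
    (hfin (L * ℓ) (Nat.mul_ne_zero hL hℓ.ne_zero) (hML.mul_right ℓ)) c hc δ hδ A hA τ hτ x hx

/-- clause `unram` -/
theorem es1g2_clause_unram (hINJ : StmtINJHAll) (hL : L ≠ 0) (hML : M ∣ L) (p : ℕ) :
    ∀ ℓ : ℕ, ℓ.Prime → ¬ ℓ ∣ L * p →
      ∀ A : ValuationSubring (AlgebraicClosure ℚ), A.LiesOverPrime ℓ →
        ∀ σ ∈ A.inertiaSubgroupIn ℚ, ∀ x : JH L M H, p • x = 0 → σ • x = x :=
  fun ℓ hℓ hgood A hA σ hσ x hx =>
    es1g2_unram hINJ L M H p hL hML ℓ hℓ hgood A hA σ hσ x hx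

/-- clause `galois_hecke` -/
theorem es1g2_clause_galois_hecke (σ : GalQ) (ℓ : Nat.Primes) (x : JH L M H) :
    σ • es1g2T L M H ℓ x = es1g2T L M H ℓ (σ • x) :=
  haveI : NeZero (ℓ : ℕ) := ⟨ℓ.2.ne_zero⟩
  es1b_galois_hecke L M H ℓ σ x

/-- clause `galois_diamond` -/
theorem es1g2_clause_galois_diamond (hD : StmtDiamondH) (hL : L ≠ 0) (hML : M ∣ L)
    (σ : GalQ) (c : (ZMod M)ˣ) (x : JH L M H) :
    σ • es1Diamond L M H c x = es1Diamond L M H c (σ • x) :=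
  diamb_galois_diamond (stmtDiamondBarH_of_diamond hD) hL hML σ c x

/-- clause `finite_level` -/
theorem es1g2_clause_finite_level {p : ℕ} (hp : p ≠ 0) (x : JH L M H) (hx : p • x = 0) :
    ∃ E : IntermediateField ℚ (AlgebraicClosure ℚ), FiniteDimensional ℚ E ∧
      ∀ σ : GalQ, (∀ a ∈ E, σ a = a) → σ • x = x :=
  es1b_finiteLevel L M H p hp x hx

/-- clause `diamond_one` -/
theorem es1g2_clause_diamond_one (x : JH L M H) : es1Diamond L M H 1 x = x :=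
  diamb_diamond_one x

/-- clause `diamond_mul` -/
theorem es1g2_clause_diamond_mul (hD : StmtDiamondH) (hL : L ≠ 0) (hML : M ∣ L)
    (c d : (ZMod M)ˣ) (x : JH L M H) :
    es1Diamond L M H (c * d) x = es1Diamond L M H c (es1Diamond L M H d x) :=
  diamb_diamond_mul (stmtDiamondBarH_of_diamond hD) hL hML c d x

end Fermat.Agent.ES1.G2
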