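import Fermat.Agent.ES1.G2.Clauses
import Fermat.Agent.ES1.InjInstDone
import Fermat.Agent.ES1.HFinal

/-!
# ES₁ / G2: final form of the clauses (INJ₁, F3-conj, F4, H are proved)

For `J = JH L M H`, `T = es1g2T L M H`, `D = es1Diamond L M H`:

* `es1g2_unramH : StmtUnramH` and `es1g2_final_unram` — UNCONDITIONAL;
* `es1g2_frobH : StmtSwapH → StmtFrobH` and `es1g2_final_frob` — from SWAP only;
* `es1g2_final_galois_hecke`, `es1g2_final_galois_diamond`, `es1g2_final_finite_level`,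
  `es1g2_final_diamond_one`, `es1g2_final_diamond_mul` — UNCONDITIONAL.

These are exactly the hypotheses `hGT`, `hGD`, `hlev`, `hD1`, `hDmul`, `hfrob`, `hunr` of
`ES1.es1b_clauses_of_unif` (take `L = M`).
-/

set_option autoImplicit false

noncomputable section

namespace Fermat.Agent.ES1.G2

open ModularCurve AlgebraicCurve Fermat.Agent.ES Fermat.Agent.ES1 Fermat.Agent.S48

/-- clause `unram` for `JH L M H`: inertia at `ℓ ∤ L m` acts trivially on the `m`-torsion -/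
theorem es1g2_unramH : StmtUnramH := es1g2_unram stmtINJHAll

/-- clause `frob` for `JH L M H`, from SWAP -/
theorem es1g2_frobH (hswap : StmtSwapH) : StmtFrobH := es1g2_frob stmtINJHAll hswap stmtDiamondH

variable {L M : ℕ} {H : Subgroup (ZMod M)ˣ}

theorem es1g2_final_unram (hL : L ≠ 0) (hML : M ∣ L) (p : ℕ) :
    ∀ ℓ : ℕ, ℓ.Prime → ¬ ℓ ∣ L * p →
      ∀ A : ValuationSubring (AlgebraicClosure ℚ), A.LiesOverPrime ℓ →
        ∀ σ ∈ A.inertiaSubgroupIn ℚ, ∀ x : JH L M H, p • x = 0 → σ • x = x :=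
  es1g2_clause_unram stmtINJHAll hL hML p

theorem es1g2_final_frob (hswap : StmtSwapH) (hL : L ≠ 0) (hML : M ∣ L) (p : ℕ) :
    ∀ ℓ : ℕ, (hℓ : ℓ.Prime) → ¬ ℓ ∣ L * p →
      ∀ c : (ZMod M)ˣ, (c : ZMod M) = (ℓ : ZMod M) →
      ∀ A : ValuationSubring (AlgebraicClosure ℚ), A.LiesOverPrime ℓ →
        ∀ τ : GalQ, A.IsFrobeniusAt τ ℓ →
          ∀ x : JH L M H, p • x = 0 →
            es1Diamond L M H c (τ • τ • x) - es1g2T L M H ⟨ℓ, hℓ⟩ (τ • x) + ℓ • x = 0 :=
  es1g2_clause_frob stmtINJHAll hswap stmtDiamondH hL hML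
    (fun _ hL' hML' => es1hFin_all hL' hML') p

theorem es1g2_final_galois_hecke (σ : GalQ) (ℓ : Nat.Primes) (x : JH L M H) :
    σ • es1g2T L M H ℓ x = es1g2T L M H ℓ (σ • x) :=
  es1g2_clause_galois_hecke σ ℓ x

theorem es1g2_final_galois_diamond (hL : L ≠ 0) (hML : M ∣ L) (σ : GalQ) (c : (ZMod M)ˣ)
    (x : JH L M H) : σ • es1Diamond L M H c x = es1Diamond L M H c (σ • x) :=
  es1g2_clause_galois_diamond stmtDiamondH hL hML σ c x

theorem es1g2_final_finite_level {p : ℕ} (hp : p ≠ 0) (x : JH L M H) (hx : p • x = 0) :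
    ∃ E : IntermediateField ℚ (AlgebraicClosure ℚ), FiniteDimensional ℚ E ∧
      ∀ σ : GalQ, (∀ a ∈ E, σ a = a) → σ • x = x :=
  es1g2_clause_finite_level hp x hx

theorem es1g2_final_diamond_one (x : JH L M H) : es1Diamond L M H 1 x = x :=
  es1g2_clause_diamond_one x

theorem es1g2_final_diamond_mul (hL : L ≠ 0) (hML : M ∣ L) (c d : (ZMod M)ˣ) (x : JH L M H) :
    es1Diamond L M H (c * d) x = es1Diamond L M H c (es1Diamond L M H d x) :=
  es1g2_clause_diamond_mul stmtDiamondH hL hML c d x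

end Fermat.Agent.ES1.G2
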