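import Fermat.Agent.ES1.G2.PowF
import Fermat.Agent.ES.G2.Frob

/-!
# ES₁ / G2, piece FROB: the Eichler–Shimura relation with diamond on the torsion of `Pic⁰`

Generic (`frobF`): `F₀ ⊂ ℚ((q))`, `F = laurentBaseChange ℚ̄ F₀`, `φ, ψ : F → F'` with the inputs of
the correspondence `T = ψ_* φ^*`, `δ` a `ℚ̄`-automorphism of `F` commuting with the Frobenius `τ`,
norm formula `N_ψ(φ v) = kronHeckeD ℓ ζ v (δ v)`, (PRIM) and (INJ) for the exponent `m` at `A`.
Then `δ τ² x − T τ x + ℓ x = 0` for `m x = 0`.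

Proof.  `x = [D]`, `m D = div f`, `f = Y₁/Y₂` and `δ f = c' Z₁/Z₂` with primitive `Y_i, Z_i`
(PRIM twice; NO integrality of `δ` is needed).  `w = δ(g²f) f^ℓ / N_ψ(φ(g f))` has divisor
`m (δ g² D − T g D + ℓ D)`; `u = w · (τc')^ℓ / τ²c'` has the same divisor and `u · B = C` with
`B = H₁ · (y₂^ℓ τ²z₂)`, `C = (y₁^ℓ τ²z₁) · H₂`, `H_i = kronHeckeD (τ y_i) (τ z_i)`; `B ≡ C` by K6δ.
Gauss (`reducesToOneF_of_series`) ⇒ `u ≡ 1` in fraction form ⇒ `u = h^m` by (INJ).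
-/

set_option autoImplicit false
set_option linter.style.haveILetI false

noncomputable section

namespace Fermat.Agent.ES1.G2

open ModularCurve AlgebraicCurve Fermat.Agent.ES Fermat.Agent.ES.G2 HahnSeries

namespace FrobDAux

open Fermat.Agent.ES.G2.FrobAux

section Key

variable {K F F' : Type*} [Field K] [Field F] [Field F'] [Algebra K F] [Algebra K F']
variable [HasPrincipalDivisors K F']

/-- If `m • D = div f` then `m • (g₁ D − T (g D) + ℓ D) = div w`,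
`w = g₁ f · f^ℓ / N_ψ(φ(g f))`, `T = ψ_* φ^*`. -/
theorem frobD_ord_w (g₁ g : SemilinearAut K F) (φ ψ : F →ₐ[K] F')
    (hφ : φ.toRingHom.IsIntegral) (hψ : ψ.toRingHom.IsIntegral)
    (hfin : FiniteAlong K ψ) (hN : NormFormulaAlong K ψ hfin)
    (D : Divisor K F) (m : ℕ) (ℓ : ℕ)
    (f : F) (hf : f ≠ 0) (hD : ∀ v : Place K F, (m : ℤ) * D v = v.ord f) (v : Place K F) :
    v.ord ((g₁ • f) * f ^ ℓ / frobNorm φ ψ (g • f)) =
      (m : ℤ) * ((g₁ • D) v - Divisor.correspondence φ ψ hφ hψ (g • D) v + (ℓ : ℤ) * D v) := by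
  show v.ord ((g₁ • f) * f ^ ℓ /
        (letI := ψ.toRingHom.toAlgebra; Algebra.norm F (φ (g • f)))) = _
  have hgf : g • f ≠ 0 := by simpa using hf
  have hg₁f : g₁ • f ≠ 0 := by simpa using hf
  have hφgf : φ (g • f) ≠ 0 := fun h0 => hgf (φ.toRingHom.injective (by simpa using h0))
  have hfl : f ^ ℓ ≠ 0 := pow_ne_zero ℓ hf
  letI := algebraAlong ψ
  haveI := isScalarTower_along ψ
  haveI := isIntegral_along ψ hψ
  haveI : Module.Finite F F' := hfin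
  set nrm : F := Algebra.norm F (φ (g • f)) with hnrm
  have hnrm0 : nrm ≠ 0 := Algebra.norm_ne_zero_iff.mpr hφgf
  set Dg : Divisor K F := (m : ℤ) • (g • D) with hDg
  have hDm : ∀ v : Place K F, ((m : ℤ) • D) v = v.ord f := by
    intro v
    rw [Finsupp.smul_apply, smul_eq_mul, hD]
  have hDg' : ∀ v : Place K F, Dg v = v.ord (g • f) := by
    intro v
    rw [hDg, ← smul_comm]
    exact smul_apply_of_ord g hDm v
  have hDgg : ∀ v : Place K F, ((m : ℤ) • (g₁ • D)) v = v.ord (g₁ • f) := by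
    intro v
    rw [← smul_comm g₁ (m : ℤ)]
    exact smul_apply_of_ord g₁ hDm v
  have hcorr : (m : ℤ) * Divisor.correspondence φ ψ hφ hψ (g • D) v = v.ord nrm := by
    have h1 := correspondence_apply_of_ord φ ψ hφ hψ hfin hN hgf hDg' v
    rw [hDg, map_zsmul, Finsupp.smul_apply, smul_eq_mul] at h1
    exact h1
  have h2 : v.ord ((g₁ • f) * f ^ ℓ / nrm)
      = v.ord (g₁ • f) + (ℓ : ℤ) * v.ord f - v.ord nrm := by
    have h3 : v.ord (f ^ ℓ) = (ℓ : ℤ) * v.ord f := by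
      have := v.ord_zpow f (ℓ : ℤ)
      rwa [zpow_natCast] at this
    rw [div_eq_mul_inv, v.ord_mul (mul_ne_zero hg₁f hfl) (inv_ne_zero hnrm0), v.ord_inv,
      v.ord_mul hg₁f hfl, h3]
    ring
  have h4 := hDgg v
  rw [Finsupp.smul_apply, smul_eq_mul] at h4
  rw [h2, ← h4, ← hcorr, ← hD v]
  ring

/-- If `g₁ D − T (g D) + ℓ D = div h`, then `g₁ [D] − T (g [D]) + ℓ [D] = 0`. -/
theorem frobD_mk_eq_zero (g₁ g : SemilinearAut K F) (φ ψ : F →ₐ[K] F')
    (hφ : φ.toRingHom.IsIntegral) (hψ : ψ.toRingHom.IsIntegral)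
    (hFI : FundamentalIdentityAlong K φ hφ)
    (hfin : FiniteAlong K ψ) (hN : NormFormulaAlong K ψ hfin)
    (D : Divisor.degZero (K := K) (F := F)) (ℓ : ℕ) (h : F) (hh0 : h ≠ 0)
    (hord : ∀ v : Place K F, v.ord h =
      (g₁ • (D : Divisor K F)) v - Divisor.correspondence φ ψ hφ hψ (g • (D : Divisor K F)) v
        + (ℓ : ℤ) * (D : Divisor K F) v) :
    g₁ • Pic0.mk D - Pic0.correspondence φ ψ hφ hψ hFI hfin hN (g • Pic0.mk D)
      + ℓ • Pic0.mk D = 0 := by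
  rw [SemilinearAut.pic0_smul_mk, SemilinearAut.pic0_smul_mk, Pic0.correspondence_mk]
  show Pic0.mk (SemilinearAut.degZeroSMulHom g₁ D
      - Pic0.degZeroCorrespondence φ ψ hφ hψ hFI (SemilinearAut.degZeroSMulHom g D)
      + ℓ • D) = 0
  refine (QuotientAddGroup.eq_zero_iff _).mpr ?_
  rw [AddSubgroup.mem_addSubgroupOf]
  refine ⟨h, hh0, fun v => ?_⟩
  rw [hord v]
  simp only [AddSubgroup.coe_add, AddSubgroup.coe_sub, AddSubgroup.coe_nsmul,
    SemilinearAut.coe_degZeroSMulHom, Pic0.coe_degZeroCorrespondence,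
    Finsupp.add_apply, Finsupp.sub_apply, Finsupp.smul_apply, nsmul_eq_mul]

end Key

section Series

variable {L : Type*} [Field L] {ℓ : ℕ} [NeZero ℓ]

theorem frobD_coeffMap_C {R S : Type*} [CommRing R] [CommRing S] (φ : R →+* S) (a : R) :
    coeffMap φ (HahnSeries.C a : LaurentSeries R) = HahnSeries.C (φ a) := by
  rw [HahnSeries.C_apply, coeffMap_single, HahnSeries.C_apply]

theorem frobD_kronRot_C (c : Lˣ) (a : L) :
    kronRot c (HahnSeries.C a : LaurentSeries L) = HahnSeries.C a := by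
  ext n
  rw [kronRot_coeff]
  by_cases hn : n = 0
  · subst hn
    simp
  · rw [HahnSeries.C_apply, HahnSeries.coeff_single_of_ne hn, mul_zero]

theorem frobD_kronNorm_C (ζ : Lˣ) (a : L) :
    kronNorm ℓ ζ (HahnSeries.C a : LaurentSeries L) = HahnSeries.C (a ^ ℓ) := by
  refine kronNorm_unique ℓ ζ _ _ ?_
  have h1 : qExpand L ℓ (HahnSeries.C (a ^ ℓ) : LaurentSeries L) = HahnSeries.C (a ^ ℓ) := by
    rw [HahnSeries.C_apply, qExpand_single, mul_zero]
  rw [h1, kronRotProd]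
  simp only [frobD_kronRot_C]
  rw [Finset.prod_const, Finset.card_range, map_pow]

theorem frobD_kronHeckeD_C_mul (ζ : Lˣ) (hζ : IsPrimitiveRoot ζ ℓ) (a : L)
    (f g : LaurentSeries L) :
    kronHeckeD ℓ ζ f (HahnSeries.C a * g) = HahnSeries.C (a ^ ℓ) * kronHeckeD ℓ ζ f g := by
  rw [kronHeckeD, kronHeckeD, kronNorm_mul ℓ ζ hζ, frobD_kronNorm_C]
  ring

end Series

end FrobDAux

open FrobDAux Fermat.Agent.ES.G2.FrobAux

/-- **FROB with diamond, generic.** -/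
theorem frobF (F₀ : IntermediateField ℚ (LaurentSeries ℚ)) {F' : Type*} [Field F']
    [Algebra QbH F'] [HasPrincipalDivisors QbH F']
    (φ ψ : laurentBaseChange QbH F₀ →ₐ[QbH] F')
    (hφ : φ.toRingHom.IsIntegral) (hψ : ψ.toRingHom.IsIntegral)
    (hFI : FundamentalIdentityAlong QbH φ hφ)
    (hfin : FiniteAlong QbH ψ) (hN : NormFormulaAlong QbH ψ hfin)
    (δ : laurentBaseChange QbH F₀ ≃ₐ[QbH] laurentBaseChange QbH F₀)
    (A : ValuationSubring QbH) (ℓ : ℕ) [NeZero ℓ] (hℓ : ℓ.Prime) (hA : A.LiesOverPrime ℓ)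
    (τ : QbH ≃ₐ[ℚ] QbH) (hτ : A.IsFrobeniusAt τ ℓ)
    (hcomm : ∀ v : laurentBaseChange QbH F₀,
      δ (arithmeticGalois F₀ τ • v) = arithmeticGalois F₀ τ • δ v)
    (ζ : QbHˣ) (hζ : IsPrimitiveRoot ζ ℓ)
    (hHN : ∀ v : laurentBaseChange QbH F₀,
      ((frobNorm φ ψ v : laurentBaseChange QbH F₀) : LaurentSeries QbH) =
        kronHeckeD ℓ ζ (v : LaurentSeries QbH) ((δ v : laurentBaseChange QbH F₀) :
          LaurentSeries QbH))
    (m : ℕ) (hm0 : m ≠ 0) (hPrim : PrimAt A (laurentBaseChange QbH F₀))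
    (hInj : InjAt A (laurentBaseChange QbH F₀) m)
    (x : Pic0 QbH (laurentBaseChange QbH F₀)) (hx : m • x = 0) :
    SemilinearAut.ofAlgAut δ • (τ • τ • x) - Pic0.correspondence φ ψ hφ hψ hFI hfin hN (τ • x)
      + ℓ • x = 0 := by
  obtain ⟨D, rfl⟩ := Pic0.mk_surjective x
  have hζ1 : ζ ^ ℓ = 1 := hζ.pow_eq_one
  -- `m D` is principal
  have hprinc : (m • D) ∈
      (Divisor.principal (K := QbH) (F := laurentBaseChange QbH F₀)).addSubgroupOf
        (Divisor.degZero (K := QbH) (F := laurentBaseChange QbH F₀)) := by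
    have h1 : Pic0.mk (m • D) = 0 := hx
    exact (QuotientAddGroup.eq_zero_iff _).mp h1
  rw [AddSubgroup.mem_addSubgroupOf] at hprinc
  obtain ⟨f, hf, hfD⟩ := hprinc
  have hfD' : ∀ v : Place QbH (laurentBaseChange QbH F₀),
      (m : ℤ) * (D : Divisor QbH (laurentBaseChange QbH F₀)) v = v.ord f := by
    intro v
    rw [← hfD v]
    simp [Finsupp.smul_apply]
  -- PRIM for `f`
  obtain ⟨c, y₁, y₂, hc, hy₁, hy₂, hp₁, hp₂, hfy⟩ := hPrim f hf
  obtain ⟨Y₁, hY₁s⟩ : ∃ Y₁ : laurentBaseChange QbH F₀, (Y₁ : LaurentSeries QbH) = y₁ :=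
    ⟨⟨y₁, hy₁⟩, rfl⟩
  obtain ⟨Y₂, hY₂s⟩ : ∃ Y₂ : laurentBaseChange QbH F₀, (Y₂ : LaurentSeries QbH) = y₂ :=
    ⟨⟨y₂, hy₂⟩, rfl⟩
  have hY₁ : Y₁ ≠ 0 := by
    intro h
    apply frob_ne_zero_of_kronPrim hp₁
    rw [← hY₁s, h]
    rfl
  have hY₂ : Y₂ ≠ 0 := by
    intro h
    apply frob_ne_zero_of_kronPrim hp₂
    rw [← hY₂s, h]
    rfl
  have hfY : f * Y₂ = algebraMap QbH (laurentBaseChange QbH F₀) c * Y₁ := by
    apply Subtype.ext
    show (f : LaurentSeries QbH) * (Y₂ : LaurentSeries QbH)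
      = algebraMap QbH (LaurentSeries QbH) c * (Y₁ : LaurentSeries QbH)
    rw [hY₁s, hY₂s, hfy, ModularCurve.algebraMap_laurentSeries_eq_single]
    rfl
  obtain ⟨f', hf'⟩ : ∃ f' : laurentBaseChange QbH F₀, f' = Y₁ / Y₂ := ⟨_, rfl⟩
  have hf'0 : f' ≠ 0 := hf' ▸ div_ne_zero hY₁ hY₂
  have hff' : f = algebraMap QbH (laurentBaseChange QbH F₀) c * f' := by
    rw [hf', mul_div_assoc', ← hfY, mul_div_cancel_right₀ _ hY₂]
  have hcF : algebraMap QbH (laurentBaseChange QbH F₀) c ≠ 0 := by rwa [Ne, map_eq_zero]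
  have hordf : ∀ v : Place QbH (laurentBaseChange QbH F₀), v.ord f' = v.ord f := by
    intro v
    rw [hff', v.ord_mul hcF hf'0, Fermat.Agent.S24.PlaceAux.ord_algebraMap v c, zero_add]
  have hD' : ∀ v : Place QbH (laurentBaseChange QbH F₀),
      (m : ℤ) * (D : Divisor QbH (laurentBaseChange QbH F₀)) v = v.ord f' := by
    intro v
    rw [hordf v, hfD' v]
  have hf's : (f' : LaurentSeries QbH) * y₂ = y₁ := by
    have h1 : f' * Y₂ = Y₁ := by rw [hf', div_mul_cancel₀ _ hY₂]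
    have h2 := congrArg Subtype.val h1
    rw [← hY₁s, ← hY₂s]
    exact h2
  -- PRIM for `δ f`
  obtain ⟨e', he'⟩ : ∃ e' : laurentBaseChange QbH F₀, e' = δ f' := ⟨_, rfl⟩
  have he'0 : e' ≠ 0 := by
    rw [he']
    exact (map_ne_zero_iff _ δ.injective).mpr hf'0
  obtain ⟨c', z₁, z₂, hc', hz₁, hz₂, hq₁, hq₂, hez⟩ := hPrim e' he'0
  -- the Galois element and the diamond
  obtain ⟨g, hg⟩ : ∃ g : SemilinearAut QbH (laurentBaseChange QbH F₀),
      g = arithmeticGalois F₀ τ := ⟨_, rfl⟩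
  obtain ⟨d, hd⟩ : ∃ d : SemilinearAut QbH (laurentBaseChange QbH F₀),
      d = SemilinearAut.ofAlgAut δ := ⟨_, rfl⟩
  have hgs : ∀ v : laurentBaseChange QbH F₀,
      ((g • v : laurentBaseChange QbH F₀) : LaurentSeries QbH)
        = coeffMap (τ : QbH →+* QbH) (v : LaurentSeries QbH) := by
    intro v
    rw [hg]
    rfl
  have hds : ∀ v : laurentBaseChange QbH F₀, d • v = δ v := by
    intro v
    rw [hd]
    rfl
  have hgx : ∀ z : Pic0 QbH (laurentBaseChange QbH F₀), τ • z = g • z := by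
    intro z
    rw [hg]
    rfl
  have hcomm' : ∀ v : laurentBaseChange QbH F₀, δ (g • v) = g • δ v := by
    intro v
    rw [hg]
    exact hcomm v
  -- the series
  obtain ⟨T, hT⟩ : ∃ T : LaurentSeries QbH →+* LaurentSeries QbH,
      T = coeffMap (τ : QbH →+* QbH) := ⟨_, rfl⟩
  have hgs' : ∀ v : laurentBaseChange QbH F₀,
      ((g • v : laurentBaseChange QbH F₀) : LaurentSeries QbH) = T (v : LaurentSeries QbH) := by
    intro v
    rw [hT]
    exact hgs v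
  obtain ⟨nrm, hnrm⟩ : ∃ nrm : laurentBaseChange QbH F₀, nrm = frobNorm φ ψ (g • f') := ⟨_, rfl⟩
  have hnrm0 : nrm ≠ 0 := by
    rw [hnrm]
    exact frobNorm_ne_zero φ ψ hfin (by simpa using hf'0)
  obtain ⟨H₁, hH₁⟩ : ∃ H₁ : LaurentSeries QbH, H₁ = kronHeckeD ℓ ζ (T y₁) (T z₁) := ⟨_, rfl⟩
  obtain ⟨H₂, hH₂⟩ : ∃ H₂ : LaurentSeries QbH, H₂ = kronHeckeD ℓ ζ (T y₂) (T z₂) := ⟨_, rfl⟩
  -- (b) the norm
  have hnrms : (nrm : LaurentSeries QbH) =
      kronHeckeD ℓ ζ (T (f' : LaurentSeries QbH)) (T (e' : LaurentSeries QbH)) := by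
    rw [hnrm, hHN, hgs', hcomm', hgs', he']
  -- (*)
  have hstar1 : (nrm : LaurentSeries QbH) * H₂
      = HahnSeries.C ((τ c') ^ ℓ) * H₁ := by
    rw [hnrms, hH₂, ← kronHeckeD_mul ζ hζ, ← map_mul, ← map_mul, hf's, hez, map_mul, hT,
      frobD_coeffMap_C, frobD_kronHeckeD_C_mul ζ hζ, hH₁, hT]
    rfl
  -- (c) the numerator
  obtain ⟨G, hG⟩ : ∃ G : laurentBaseChange QbH F₀, G = d • g • g • f' := ⟨_, rfl⟩
  have hGs : (G : LaurentSeries QbH) = T (T (e' : LaurentSeries QbH)) := by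
    have h1 : G = g • g • e' := by
      rw [hG, hds, hcomm', hcomm', he']
    rw [h1, hgs', hgs']
  have hstar2 : (G : LaurentSeries QbH) * T (T z₂) = HahnSeries.C (τ (τ c')) * T (T z₁) := by
    rw [hGs, ← map_mul, ← map_mul, hez, map_mul, map_mul, hT, frobD_coeffMap_C,
      frobD_coeffMap_C]
    rfl
  have hstar3 : (f' : LaurentSeries QbH) ^ ℓ * y₂ ^ ℓ = y₁ ^ ℓ := by
    rw [← mul_pow, hf's]
  -- `w` and `u`
  obtain ⟨w, hw⟩ : ∃ w : laurentBaseChange QbH F₀, w = G * f' ^ ℓ / nrm := ⟨_, rfl⟩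
  have hG0 : G ≠ 0 := by
    rw [hG]
    simpa using hf'0
  have hw0 : w ≠ 0 := by
    rw [hw]
    exact div_ne_zero (mul_ne_zero hG0 (pow_ne_zero ℓ hf'0)) hnrm0
  have hwn : w * nrm = G * f' ^ ℓ := by
    rw [hw, div_mul_cancel₀ _ hnrm0]
  have hwns : (w : LaurentSeries QbH) * (nrm : LaurentSeries QbH)
      = (G : LaurentSeries QbH) * (f' : LaurentSeries QbH) ^ ℓ :=
    congrArg Subtype.val hwn
  have hτc' : τ c' ≠ 0 := (map_ne_zero_iff _ τ.injective).mpr hc'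
  have hττc' : τ (τ c') ≠ 0 := (map_ne_zero_iff _ τ.injective).mpr hτc'
  obtain ⟨κ, hκ⟩ : ∃ κ : QbH, κ = (τ c') ^ ℓ / τ (τ c') := ⟨_, rfl⟩
  have hκ0 : κ ≠ 0 := by
    rw [hκ]
    exact div_ne_zero (pow_ne_zero ℓ hτc') hττc'
  obtain ⟨u, hu⟩ : ∃ u : laurentBaseChange QbH F₀,
      u = w * algebraMap QbH (laurentBaseChange QbH F₀) κ := ⟨_, rfl⟩
  have hκF : algebraMap QbH (laurentBaseChange QbH F₀) κ ≠ 0 := by rwa [Ne, map_eq_zero]
  have hu0 : u ≠ 0 := by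
    rw [hu]
    exact mul_ne_zero hw0 hκF
  have hus : (u : LaurentSeries QbH) * HahnSeries.C (τ (τ c'))
      = (w : LaurentSeries QbH) * HahnSeries.C ((τ c') ^ ℓ) := by
    have h1 : (u : LaurentSeries QbH) = (w : LaurentSeries QbH) * HahnSeries.C κ := by
      rw [hu]
      show (w : LaurentSeries QbH) * algebraMap QbH (LaurentSeries QbH) κ = _
      rw [LaurentSeries.algebraMap_apply]
    rw [h1, mul_assoc, ← map_mul, hκ, div_mul_cancel₀ _ hττc']
  -- the key identity `u · B = C`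
  have hKn0 : (nrm : LaurentSeries QbH) * HahnSeries.C (τ (τ c')) ≠ 0 := by
    refine mul_ne_zero (fun h => hnrm0 (Subtype.ext h)) ?_
    intro h
    apply hττc'
    have := congrArg (fun s : LaurentSeries QbH => s.coeff 0) h
    simpa using this
  have huB : (u : LaurentSeries QbH) * (H₁ * (y₂ ^ ℓ * T (T z₂)))
      = (y₁ ^ ℓ * T (T z₁)) * H₂ := by
    apply mul_right_cancel₀ hKn0
    linear_combination (H₁ * y₂ ^ ℓ * T (T z₂) * (nrm : LaurentSeries QbH)) * hus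
      + (HahnSeries.C ((τ c') ^ ℓ) * H₁ * y₂ ^ ℓ * T (T z₂)) * hwns
      - ((G : LaurentSeries QbH) * (f' : LaurentSeries QbH) ^ ℓ * y₂ ^ ℓ * T (T z₂)) * hstar1
      + ((f' : LaurentSeries QbH) ^ ℓ * y₂ ^ ℓ * (nrm : LaurentSeries QbH) * H₂) * hstar2
      + (HahnSeries.C (τ (τ c')) * T (T z₁) * (nrm : LaurentSeries QbH) * H₂) * hstar3
  -- primitivity and congruence
  have hB : KronPrim A (H₁ * (y₂ ^ ℓ * T (T z₂))) := by
    rw [hH₁, hT]
    exact (kronPrim_kronHeckeD_frob hℓ hA ζ hζ1 τ hτ hp₁ hq₁).mul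
      (kronPrim_frobD_rhs τ hτ hp₂ hq₂)
  have hC : KronPrim A ((y₁ ^ ℓ * T (T z₁)) * H₂) := by
    rw [hH₂, hT]
    exact (kronPrim_frobD_rhs τ hτ hp₁ hq₁).mul
      (kronPrim_kronHeckeD_frob hℓ hA ζ hζ1 τ hτ hp₂ hq₂)
  have hBC : KronCongr A (H₁ * (y₂ ^ ℓ * T (T z₂))) ((y₁ ^ ℓ * T (T z₁)) * H₂) := by
    rw [hH₁, hH₂, hT]
    have hP₁ := (kronPrim_frobD_rhs τ hτ hp₁ hq₁).1
    have hP₂ := (kronPrim_frobD_rhs τ hτ hp₂ hq₂).1
    have hI₁ := (kronPrim_kronHeckeD_frob hℓ hA ζ hζ1 τ hτ hp₁ hq₁).1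
    have hI₂ := (kronPrim_kronHeckeD_frob hℓ hA ζ hζ1 τ hτ hp₂ hq₂).1
    have e1 := KronCongr.mul (A := A) hI₁ hP₁ hP₂ hP₂
      (kronHeckeD_frob_congr hℓ hA ζ hζ1 τ hτ hp₁.1 hq₁.1) (KronCongr.refl _)
    have e2 := KronCongr.mul (A := A) hP₁ hP₁ hP₂ hI₂ (KronCongr.refl _)
      (kronHeckeD_frob_congr hℓ hA ζ hζ1 τ hτ hp₂.1 hq₂.1).symm
    exact e1.trans e2
  have hred : ReducesToOneF A (laurentBaseChange QbH F₀) u :=
    reducesToOneF_of_series hPrim u hu0 _ _ hB hC hBC huB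
  -- the divisor of `u`
  have hordw : ∀ v : Place QbH (laurentBaseChange QbH F₀), v.ord w =
      (m : ℤ) * (((d * (g * g)) • (D : Divisor QbH (laurentBaseChange QbH F₀))) v
        - Divisor.correspondence φ ψ hφ hψ (g • (D : Divisor QbH (laurentBaseChange QbH F₀))) v
        + (ℓ : ℤ) * (D : Divisor QbH (laurentBaseChange QbH F₀)) v) := by
    intro v
    have h1 := frobD_ord_w (d * (g * g)) g φ ψ hφ hψ hfin hN
      (D : Divisor QbH (laurentBaseChange QbH F₀)) m ℓ f' hf'0 hD' v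
    have h2 : (d * (g * g)) • f' = G := by
      rw [hG, mul_smul, mul_smul]
    rw [h2, ← hnrm, ← hw] at h1
    exact h1
  have hordu : ∀ v : Place QbH (laurentBaseChange QbH F₀), v.ord u = v.ord w := by
    intro v
    rw [hu, v.ord_mul hw0 hκF, Fermat.Agent.S24.PlaceAux.ord_algebraMap v κ, add_zero]
  have hdiv : ∀ P : Place QbH (laurentBaseChange QbH F₀), (m : ℤ) ∣ P.ord u := by
    intro P
    rw [hordu P, hordw P]
    exact dvd_mul_right _ _
  obtain ⟨h, hh⟩ := hInj u hu0 hred hdiv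
  have hh0 : h ≠ 0 := by
    intro h0
    rw [h0, zero_pow hm0] at hh
    exact hu0 hh.symm
  have hm' : (m : ℤ) ≠ 0 := by exact_mod_cast hm0
  have hordh : ∀ v : Place QbH (laurentBaseChange QbH F₀), v.ord h =
      ((d * (g * g)) • (D : Divisor QbH (laurentBaseChange QbH F₀))) v
        - Divisor.correspondence φ ψ hφ hψ (g • (D : Divisor QbH (laurentBaseChange QbH F₀))) v
        + (ℓ : ℤ) * (D : Divisor QbH (laurentBaseChange QbH F₀)) v := by
    intro v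
    have h1 : v.ord (h ^ m) = (m : ℤ) * v.ord h := by
      have := v.ord_zpow h (m : ℤ)
      rwa [zpow_natCast] at this
    have h5 := hordw v
    rw [← hordu v, ← hh, h1] at h5
    exact mul_left_cancel₀ hm' h5
  have key := frobD_mk_eq_zero (d * (g * g)) g φ ψ hφ hψ hFI hfin hN D ℓ h hh0 hordh
  rw [mul_smul, mul_smul] at key
  rw [hgx, hgx, ← hd]
  exact key

end Fermat.Agent.ES1.G2
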