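import Fermat.Agent.ES1.G2.PowF
import Fermat.Agent.ES.G2.Unram

/-!
# ES₁ / G2, piece UNRAM: inertia acts trivially on the torsion of `Pic⁰`

Generic: `F₀ ⊂ ℚ((q))` any intermediate field, `F = laurentBaseChange ℚ̄ F₀`, with (PRIM) and
(INJ) for the exponent `m` at `A`: every `σ` in the inertia group of `A` fixes `Pic⁰(F)[m]`
(`unramF`, fork of `ES/G2/Unram.lean`).  Then `stmtUnramH_of_inj : StmtPrimH → StmtInjH → StmtUnramH`.
-/

set_option autoImplicit false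

noncomputable section

namespace Fermat.Agent.ES1.G2

open ModularCurve AlgebraicCurve Fermat.Agent.ES Fermat.Agent.ES.G2 HahnSeries

/-- **UNRAM, generic.** -/
theorem unramF (F₀ : IntermediateField ℚ (LaurentSeries ℚ)) (A : ValuationSubring QbH)
    (m : ℕ) (hm0 : m ≠ 0) (hPrim : PrimAt A (laurentBaseChange QbH F₀))
    (hInj : InjAt A (laurentBaseChange QbH F₀) m)
    (σ : QbH ≃ₐ[ℚ] QbH) (hσ : σ ∈ A.inertiaSubgroupIn ℚ)
    (x : Pic0 QbH (laurentBaseChange QbH F₀)) (hx : m • x = 0) : σ • x = x := by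
  obtain ⟨D, rfl⟩ := Pic0.mk_surjective x
  -- `m D` is principal
  have hprin : ((m • D : Divisor.degZero (K := QbH) (F := laurentBaseChange QbH F₀)) :
      Divisor QbH (laurentBaseChange QbH F₀)) ∈ Divisor.principal := by
    have h1 : Pic0.mk (m • D) = 0 := by
      rw [← hx]; rfl
    unfold Pic0.mk at h1
    rw [QuotientAddGroup.eq_zero_iff, AddSubgroup.mem_addSubgroupOf] at h1
    exact h1
  obtain ⟨u, hu, hDu⟩ := hprin
  have hDu' : ∀ v : Place QbH (laurentBaseChange QbH F₀),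
      (m : ℤ) * (D : Divisor QbH (laurentBaseChange QbH F₀)) v = v.ord u := by
    intro v
    rw [← hDu v, AddSubgroup.coe_nsmul, Finsupp.smul_apply, nsmul_eq_mul]
  -- PRIM
  obtain ⟨c, y₁, y₂, hc, hy₁, hy₂, hP₁, hP₂, he⟩ := hPrim u hu
  have hy₁0 : y₁ ≠ 0 := unram_ne_zero_of_kronPrim hP₁
  have hy₂0 : y₂ ≠ 0 := unram_ne_zero_of_kronPrim hP₂
  set Y₁ : laurentBaseChange QbH F₀ := ⟨y₁, hy₁⟩ with hY₁
  set Y₂ : laurentBaseChange QbH F₀ := ⟨y₂, hy₂⟩ with hY₂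
  have hY₁0 : Y₁ ≠ 0 := fun h => hy₁0 (congrArg Subtype.val h)
  have hY₂0 : Y₂ ≠ 0 := fun h => hy₂0 (congrArg Subtype.val h)
  have heF : u * Y₂ = algebraMap QbH (laurentBaseChange QbH F₀) c * Y₁ := by
    apply Subtype.ext
    show (u : LaurentSeries QbH) * y₂ = algebraMap QbH (LaurentSeries QbH) c * y₁
    rw [he, algebraMap_laurentSeries_eq_single]
    rfl
  have hu' : u = algebraMap QbH (laurentBaseChange QbH F₀) c * (Y₁ / Y₂) := by
    field_simp
    exact heF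
  have hdiv0 : Y₁ / Y₂ ≠ 0 := div_ne_zero hY₁0 hY₂0
  have hc' : algebraMap QbH (laurentBaseChange QbH F₀) c ≠ 0 := by
    simpa using hc
  have hD' : ∀ v : Place QbH (laurentBaseChange QbH F₀),
      (m : ℤ) * (D : Divisor QbH (laurentBaseChange QbH F₀)) v = v.ord (Y₁ / Y₂) := by
    intro v
    rw [hDu' v, hu', v.ord_mul hc' hdiv0, unram_ord_algebraMap v hc, zero_add]
  -- the semilinear automorphism
  set g := arithmeticGalois F₀ σ with hg
  have hσdec : σ ∈ A.decompositionSubgroup ℚ := kron_mem_decomposition_of_mem_inertia hσ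
  have hgY₁0 : g • Y₁ ≠ 0 := by
    rw [SemilinearAut.smul_def]
    exact (map_ne_zero_iff _ (SemilinearAut.toRingAut g).injective).mpr hY₁0
  have hgY₂0 : g • Y₂ ≠ 0 := by
    rw [SemilinearAut.smul_def]
    exact (map_ne_zero_iff _ (SemilinearAut.toRingAut g).injective).mpr hY₂0
  have hgdiv : g • (Y₁ / Y₂) = (g • Y₁) / (g • Y₂) := by
    simp only [SemilinearAut.smul_def, map_div₀]
  -- `w = g u' / u'` reduces to one
  have hw0 : (g • (Y₁ / Y₂)) / (Y₁ / Y₂) ≠ 0 := by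
    rw [hgdiv]
    exact div_ne_zero (div_ne_zero hgY₁0 hgY₂0) hdiv0
  have hred : ReducesToOneF A (laurentBaseChange QbH F₀) ((g • (Y₁ / Y₂)) / (Y₁ / Y₂)) := by
    refine ⟨coeffMap (σ : QbH →+* QbH) y₁ * y₂, coeffMap (σ : QbH →+* QbH) y₂ * y₁,
      mul_mem (coeffMap_mem_laurentBaseChange σ hy₁) hy₂,
      mul_mem (coeffMap_mem_laurentBaseChange σ hy₂) hy₁,
      (hP₁.coeffMap_of_mem_decomposition σ hσdec).mul hP₂,
      (hP₂.coeffMap_of_mem_decomposition σ hσdec).mul hP₁, ?_, ?_⟩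
    · -- congruence
      have c1 : KronCongr A (coeffMap (σ : QbH →+* QbH) y₁ * y₂) (y₁ * y₂) :=
        KronCongr.mul (hP₁.1.coeffMap_of_mem_decomposition σ hσdec) hP₁.1 hP₂.1 hP₂.1
          (kron_inertia_congr hσ hP₁.1) (KronCongr.refl (A := A) y₂)
      have c2 : KronCongr A (coeffMap (σ : QbH →+* QbH) y₂ * y₁) (y₂ * y₁) :=
        KronCongr.mul (hP₂.1.coeffMap_of_mem_decomposition σ hσdec) hP₂.1 hP₁.1 hP₁.1
          (kron_inertia_congr hσ hP₂.1) (KronCongr.refl (A := A) y₁)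
      rw [mul_comm y₂ y₁] at c2
      exact c1.trans c2.symm
    · -- the fraction
      have e : (g • (Y₁ / Y₂)) / (Y₁ / Y₂) * ((g • Y₂) * Y₁) = (g • Y₁) * Y₂ := by
        rw [hgdiv]
        field_simp
      have := congrArg (Subtype.val) e
      exact this
  have hdvd : ∀ P : Place QbH (laurentBaseChange QbH F₀),
      (m : ℤ) ∣ P.ord ((g • (Y₁ / Y₂)) / (Y₁ / Y₂)) := by
    intro P
    have hgu0 : g • (Y₁ / Y₂) ≠ 0 := by rw [hgdiv]; exact div_ne_zero hgY₁0 hgY₂0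
    have h2 : P.ord (g • (Y₁ / Y₂)) = (g⁻¹ • P).ord (Y₁ / Y₂) := by
      have := SemilinearAut.ord_smul g (g⁻¹ • P) (Y₁ / Y₂)
      rwa [smul_inv_smul] at this
    rw [unram_ord_div P hgu0 hdiv0, h2, ← hD', ← hD', ← mul_sub]
    exact dvd_mul_right _ _
  obtain ⟨h, hh⟩ := hInj _ hw0 hred hdvd
  exact unram_pic0_smul_eq g D m hm0 (Y₁ / Y₂) hdiv0 hD' h hh

/-- **Piece UNRAM.** -/
theorem stmtUnramH_of_inj (hPrim : StmtPrimH) (hInj : StmtInjH) : StmtUnramH := by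
  intro L M H m hL hML ℓ hℓ hgood A hA σ hσ x hx
  have hℓL : ¬ ℓ ∣ L := fun h => hgood (h.mul_right m)
  have hℓm : ¬ ℓ ∣ m := fun h => hgood (h.mul_left L)
  have hm0 : m ≠ 0 := by rintro rfl; exact hℓm (dvd_zero ℓ)
  exact unramF (fieldQ L M H) A m hm0 (hPrim L M H A) (hInj L M H ℓ hL hML hℓ hℓL A hA m hℓm)
    σ hσ x hx

end Fermat.Agent.ES1.G2
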