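import Fermat.Agent.ES1.G2.FrobH
import Fermat.Agent.ES1.G2.UnramH
import Fermat.Agent.ES1.Formal

/-!
# ES₁ / G2, piece FROB at level `(L; M, H)`

* `isDiamondH_comm_galois` : a diamond automorphism of `fieldBar L M H` commutes with the
  coefficientwise Galois action (both sides agree on the generators, which have rational
  coefficients);
* `stmtFrobH_of_inj : StmtPrimH → StmtInjH → StmtHeckeNormH → StmtFrobH`.
-/

set_option autoImplicit false

noncomputable section

namespace Fermat.Agent.ES1.G2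

open ModularCurve AlgebraicCurve Fermat.Agent.ES Fermat.Agent.ES1 HahnSeries

variable {L M : ℕ} {H : Subgroup (ZMod M)ˣ}

theorem frobm_coe_galois_smul (τ : QbH ≃ₐ[ℚ] QbH) (v : fieldBar L M H) :
    ((arithmeticGalois (fieldQ L M H) τ • v : fieldBar L M H) : LaurentSeries QbH)
      = coeffMap (τ : QbH →+* QbH) (v : LaurentSeries QbH) := rfl

/-- a diamond automorphism commutes with the Galois action on the coefficients -/
theorem isDiamondH_comm_galois {c : (ZMod M)ˣ} {δ : fieldBar L M H ≃ₐ[QbH] fieldBar L M H}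
    (hδ : IsDiamondH L M H c δ) (τ : QbH ≃ₐ[ℚ] QbH) (v : fieldBar L M H) :
    δ (arithmeticGalois (fieldQ L M H) τ • v) = arithmeticGalois (fieldQ L M H) τ • δ v := by
  obtain ⟨g, hg⟩ : ∃ g : SemilinearAut QbH (fieldBar L M H),
      g = arithmeticGalois (fieldQ L M H) τ := ⟨_, rfl⟩
  rw [← hg]
  have hgs : ∀ v : fieldBar L M H,
      ((g • v : fieldBar L M H) : LaurentSeries QbH)
        = coeffMap (τ : QbH →+* QbH) (v : LaurentSeries QbH) := by
    intro v
    rw [hg]
    rfl
  have hmem : ∀ x : LaurentSeries QbH, x ∈ fieldC QbH L M H → x ∈ fieldBar L M H := by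
    intro x hx
    rw [es1f_fieldBar_eq]
    exact hx
  have key : ∀ x (hx : x ∈ fieldC QbH L M H),
      δ (g • (⟨x, hmem x hx⟩ : fieldBar L M H)) = g • δ (⟨x, hmem x hx⟩ : fieldBar L M H) := by
    intro x hx
    unfold fieldC at hx
    induction hx using IntermediateField.adjoin_induction with
    | mem x hx =>
        rcases hx with ⟨d, hd, hdL, rfl⟩ | ⟨e, he, a, heL, rfl⟩
        · -- `j(q^d)`
          have h1 : ∀ (h : qExpand QbH d (jqModC QbH) ∈ fieldBar L M H),
              g • (⟨_, h⟩ : fieldBar L M H) = ⟨_, h⟩ := by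
            intro h
            apply Subtype.ext
            rw [hgs]
            exact coeffMap_jqNModC (τ : QbH →+* QbH) d
          rw [h1, hδ.fix_j d hdL _ rfl, h1]
        · -- `S_a(q^e)`
          have h1 : ∀ (b : (ZMod M)ˣ) (h : qExpand QbH e (sS QbH M H b) ∈ fieldBar L M H),
              g • (⟨_, h⟩ : fieldBar L M H) = ⟨_, h⟩ := by
            intro b h
            apply Subtype.ext
            rw [hgs]
            exact es1f_coeffMap_qExpand_sS (τ : QbH →+* QbH) M H b e
          rw [h1]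
          have h2 := hδ.map_s e a heL ⟨_, hmem _ (qExpand_sS_mem QbH L M H heL a)⟩ rfl
          have h3 : δ (⟨_, hmem _ (qExpand_sS_mem QbH L M H heL a)⟩ : fieldBar L M H)
              = ⟨_, hmem _ (qExpand_sS_mem QbH L M H heL (a * c))⟩ := Subtype.ext h2
          rw [h3, h1]
    | algebraMap a =>
        have h1 : (⟨algebraMap QbH (LaurentSeries QbH) a,
            hmem _ (IntermediateField.algebraMap_mem _ a)⟩ : fieldBar L M H)
              = algebraMap QbH (fieldBar L M H) a := rfl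
        rw [h1, SemilinearAut.smul_algebraMap, AlgEquiv.commutes, AlgEquiv.commutes,
          SemilinearAut.smul_algebraMap]
    | add x y hx hy ihx ihy =>
        have h1 : (⟨x + y, hmem _ (add_mem hx hy)⟩ : fieldBar L M H)
            = ⟨x, hmem _ hx⟩ + ⟨y, hmem _ hy⟩ := rfl
        rw [h1, smul_add, map_add, map_add, smul_add, ihx, ihy]
    | inv x hx ihx =>
        have h1 : (⟨x⁻¹, hmem _ (inv_mem hx)⟩ : fieldBar L M H)
            = (⟨x, hmem _ hx⟩ : fieldBar L M H)⁻¹ := rfl
        rw [h1, smul_inv'', map_inv₀, map_inv₀, smul_inv'', ihx]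
    | mul x y hx hy ihx ihy =>
        have h1 : (⟨x * y, hmem _ (mul_mem hx hy)⟩ : fieldBar L M H)
            = ⟨x, hmem _ hx⟩ * ⟨y, hmem _ hy⟩ := rfl
        rw [h1, smul_mul', map_mul, map_mul, smul_mul', ihx, ihy]
  have hv : (v : LaurentSeries QbH) ∈ fieldC QbH L M H := by
    rw [← es1f_fieldBar_eq]
    exact v.2
  exact key v hv

/-- **Piece FROB.** -/
theorem stmtFrobH_of_inj (hPrim : StmtPrimH) (hInj : StmtInjH) (hHN : StmtHeckeNormH) :
    StmtFrobH := by
  intro L M H m hL hML ℓ _ hℓ hgood hfin hfin' c hc δ hδ A hA τ hτ x hx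
  have hℓL : ¬ ℓ ∣ L := fun h => hgood (h.mul_right m)
  have hℓm : ¬ ℓ ∣ m := fun h => hgood (h.mul_left L)
  have hm0 : m ≠ 0 := by rintro rfl; exact hℓm (dvd_zero ℓ)
  obtain ⟨ζ, hζ⟩ := Fermat.Agent.ES.G2.frob_exists_primitiveRoot ℓ hℓ.ne_zero
  haveI := es1h_hasPrincipalDivisors hfin'
  rw [es1hHecke_eq_of_fin hfin hfin']
  exact frobF (fieldQ L M H) (es1hBeta L M H ℓ) (es1hAlpha L M H ℓ) _ _ _ _ _ δ A ℓ hℓ hA τ hτ
    (isDiamondH_comm_galois hδ τ) ζ hζ
    (fun v => hHN L M H ℓ hL hML hℓ hℓL c hc δ hδ ζ hζ v)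
    m hm0 (hPrim L M H A) (hInj L M H ℓ hL hML hℓ hℓL A hA m hℓm) x hx

end Fermat.Agent.ES1.G2
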