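import Fermat.Agent.ES1.G2.Plan
import Fermat.Agent.ES.G2.Pow

/-!
# ES₁ / G2, piece POW (generic): prime exponents suffice for (INJ)

For ANY intermediate field `F` of `ℚ̄((q)) / ℚ̄` with (PRIM) at `A`:
`(∀ p prime, p ≠ ℓ → InjAt A F p) → ∀ m, ¬ ℓ ∣ m → InjAt A F m`
(fork of `ES/G2/Pow.lean`, whose auxiliary lemmas are reused).  Also the Gauss lemma
`reducesToOneF_of_series`: `u ∈ F` with `u · B = C`, `B ≡ C` primitive series of `ℚ̄((q))`
(NOT necessarily in `F`) reduces to one in fraction form inside `F`.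
-/

set_option autoImplicit false

noncomputable section

namespace Fermat.Agent.ES1.G2

open ModularCurve AlgebraicCurve Fermat.Agent.ES Fermat.Agent.ES.G2 Polynomial

variable {A : ValuationSubring QbH} {F : IntermediateField QbH (LaurentSeries QbH)}

theorem powF_C_mem (c : QbH) : (HahnSeries.C c : LaurentSeries QbH) ∈ F := by
  rw [← LaurentSeries.algebraMap_apply]
  exact IntermediateField.algebraMap_mem _ _

/-- **Gauss' lemma, fraction form.**  If `u ∈ F^×` satisfies `u · B = C` with `B`, `C` primitive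
and congruent series of `ℚ̄((q))`, then `u` reduces to one inside `F`. -/
theorem reducesToOneF_of_series (hPrim : PrimAt A F) (u : F) (hu : u ≠ 0)
    (B C : LaurentSeries QbH) (hB : KronPrim A B) (hC : KronPrim A C) (hBC : KronCongr A B C)
    (huB : (u : LaurentSeries QbH) * B = C) : ReducesToOneF A F u := by
  obtain ⟨c, a₁, a₂, hc, ha₁m, ha₂m, ha₁, ha₂, hua⟩ := hPrim u hu
  -- `(c a₁) · B = a₂ · C`
  have hstar : (HahnSeries.C c * a₁) * B = a₂ * C := by
    rw [← hua, ← huB]; ring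
  have hvc : A.valuation c = 1 := by
    refine pow_valuation_eq_one_of_kronPrim (W := a₁ * B) (ha₁.mul hB) ?_
    have : HahnSeries.C c * (a₁ * B) = a₂ * C := by rw [← hstar]; ring
    rw [this]
    exact ha₂.mul hC
  have hZ₁ : KronPrim A (HahnSeries.C c * a₁) := pow_kronPrim_C_mul hvc ha₁
  refine ⟨HahnSeries.C c * a₁, a₂, mul_mem (powF_C_mem c) ha₁m, ha₂m, hZ₁, ha₂, ?_, hua⟩
  -- the congruence, in `k((q))`
  obtain ⟨Z₁', hZ₁'⟩ := hZ₁.1.exists_lift
  obtain ⟨a₂', ha₂'⟩ := ha₂.1.exists_lift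
  obtain ⟨B', hB'⟩ := hB.1.exists_lift
  obtain ⟨C', hC'⟩ := hC.1.exists_lift
  have hstarA : Z₁' * B' = a₂' * C' := by
    apply kronIncl_injective (A := A)
    rw [map_mul, map_mul, hZ₁', ha₂', hB', hC', hstar]
  have hredeq : kronRed A B' = kronRed A C' := by
    rw [← kronCongr_kronIncl_iff, hB', hC']; exact hBC
  have hBne : kronRed A B' ≠ 0 := by
    rw [← kronPrim_kronIncl_iff, hB']; exact hB
  have hk : kronRed A Z₁' = kronRed A a₂' := by
    have := congrArg (kronRed A) hstarA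
    rw [map_mul, map_mul, ← hredeq] at this
    exact mul_right_cancel₀ hBne this
  have := (kronCongr_kronIncl_iff Z₁' a₂').2 hk
  rwa [hZ₁', ha₂'] at this

/-! ### adjusting a root by a root of unity -/

theorem powF_adjust (hPrim : PrimAt A F) (p : ℕ) (hp : 0 < p)
    (u h : F) (hu : u ≠ 0) (hred : ReducesToOneF A F u) (hh : h ^ p = u) :
    ∃ ζ : QbH, ζ ^ p = 1 ∧ ReducesToOneF A F (h * algebraMap QbH F ζ) := by
  have hh0 : h ≠ 0 := by
    rintro rfl
    rw [zero_pow hp.ne'] at hh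
    exact hu hh.symm
  obtain ⟨c, z₁, z₂, hc, hz₁m, hz₂m, hz₁, hz₂, hhz⟩ := hPrim h hh0
  obtain ⟨y₁, y₂, hy₁m, hy₂m, hy₁, hy₂, hcong, huy⟩ := hred
  have hhL : (h : LaurentSeries QbH) ^ p = (u : LaurentSeries QbH) := by
    rw [← hh]; rfl
  -- `(c z₁)^p y₂ = y₁ z₂^p`
  have hstar : (HahnSeries.C c * z₁) ^ p * y₂ = y₁ * z₂ ^ p := by
    rw [← hhz, mul_pow, hhL, ← huy]; ring
  -- `c` is a unit of `A`
  have hvcp : A.valuation (c ^ p) = 1 := by
    refine pow_valuation_eq_one_of_kronPrim (W := z₁ ^ p * y₂) ((hz₁.pow p).mul hy₂) ?_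
    have : HahnSeries.C (c ^ p) * (z₁ ^ p * y₂) = y₁ * z₂ ^ p := by
      rw [← hstar, mul_pow, map_pow]; ring
    rw [this]
    exact hy₁.mul (hz₂.pow p)
  have hvc : A.valuation c = 1 := by
    rw [map_pow] at hvcp
    exact (pow_eq_one_iff.1 hvcp).resolve_right hp.ne'
  have hZ₁ : KronPrim A (HahnSeries.C c * z₁) := pow_kronPrim_C_mul hvc hz₁
  -- pass to `A((q))` and reduce
  obtain ⟨Z₁', hZ₁'⟩ := hZ₁.1.exists_lift
  obtain ⟨z₂', hz₂'⟩ := hz₂.1.exists_lift
  obtain ⟨y₁', hy₁'⟩ := hy₁.1.exists_lift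
  obtain ⟨y₂', hy₂'⟩ := hy₂.1.exists_lift
  have hstarA : Z₁' ^ p * y₂' = y₁' * z₂' ^ p := by
    apply kronIncl_injective (A := A)
    rw [map_mul, map_mul, map_pow, map_pow, hZ₁', hz₂', hy₁', hy₂', hstar]
  have hredeq : kronRed A y₁' = kronRed A y₂' := by
    rw [← kronCongr_kronIncl_iff, hy₁', hy₂']; exact hcong
  have hy₂ne : kronRed A y₂' ≠ 0 := by
    rw [← kronPrim_kronIncl_iff, hy₂']; exact hy₂
  have hz₂ne : kronRed A z₂' ≠ 0 := by
    rw [← kronPrim_kronIncl_iff, hz₂']; exact hz₂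
  have hstark : kronRed A Z₁' ^ p = kronRed A z₂' ^ p := by
    have := congrArg (kronRed A) hstarA
    rw [map_mul, map_mul, map_pow, map_pow, hredeq, mul_comm (kronRed A y₂')] at this
    exact mul_right_cancel₀ hy₂ne this
  have hω : (kronRed A Z₁' / kronRed A z₂') ^ p = 1 := by
    rw [div_pow, hstark, div_self (pow_ne_zero _ hz₂ne)]
  obtain ⟨ζA, hζAp, hζA⟩ := pow_exists_root_of_unity A
    ((HahnSeries.C : _ →+* LaurentSeries (IsLocalRing.ResidueField A)).comp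
      (IsLocalRing.residue A)) hp hω
  have hredZ : kronRed A Z₁' = kronRed A (HahnSeries.C ζA * z₂') := by
    rw [map_mul, pow_kronRed_C]
    rw [RingHom.comp_apply] at hζA
    rw [hζA, div_mul_cancel₀ _ hz₂ne]
  have hcongZ : KronCongr A (HahnSeries.C c * z₁) (HahnSeries.C (ζA : QbH) * z₂) := by
    have := (kronCongr_kronIncl_iff Z₁' (HahnSeries.C ζA * z₂')).2 hredZ
    rwa [hZ₁', map_mul, pow_kronIncl_C, hz₂'] at this
  -- the root of unity
  set ζ : QbH := (ζA : QbH) with hζ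
  have hζp : ζ ^ p = 1 := by
    have := congrArg (fun a : A => (a : QbH)) hζAp
    simpa using this
  have hζ0 : ζ ≠ 0 := by
    intro h0
    rw [h0, zero_pow hp.ne'] at hζp
    exact zero_ne_one hζp
  have hvζ : A.valuation ζ = 1 := by
    have h1 : A.valuation ζ ^ p = 1 := by rw [← map_pow, hζp, map_one]
    exact (pow_eq_one_iff.1 h1).resolve_right hp.ne'
  have hvζi : A.valuation ζ⁻¹ = 1 := by rw [map_inv₀, hvζ, inv_one]
  refine ⟨ζ⁻¹, by rw [inv_pow, hζp, inv_one], HahnSeries.C ζ⁻¹ * (HahnSeries.C c * z₁), z₂, ?_,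
    hz₂m, pow_kronPrim_C_mul hvζi hZ₁, hz₂, ?_, ?_⟩
  · exact mul_mem (powF_C_mem _) (mul_mem (powF_C_mem _) hz₁m)
  · have h1 : KronCongr A (HahnSeries.C ζ⁻¹ * (HahnSeries.C c * z₁))
        (HahnSeries.C ζ⁻¹ * (HahnSeries.C ζ * z₂)) :=
      KronCongr.mul (pow_kronInt_C_mul (pow_mem_of_valuation_eq_one hvζi) KronInt.one |> fun h => by
          simpa using h)
        (pow_kronInt_C_mul (pow_mem_of_valuation_eq_one hvζi) KronInt.one |> fun h => by
          simpa using h) hZ₁.1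
        (pow_kronInt_C_mul (pow_mem_of_valuation_eq_one hvζ) hz₂.1) (KronCongr.refl _) hcongZ
    have h2 : HahnSeries.C ζ⁻¹ * (HahnSeries.C ζ * z₂) = z₂ := by
      rw [← mul_assoc, ← map_mul, inv_mul_cancel₀ hζ0, map_one, one_mul]
    rwa [h2] at h1
  · show (h : LaurentSeries QbH) * algebraMap QbH (LaurentSeries QbH) ζ⁻¹ * z₂ = _
    rw [LaurentSeries.algebraMap_apply, ← hhz]
    ring

/-- **Piece POW, generic.** -/
theorem injAt_of_prime (hPrim : PrimAt A F) (ℓ : ℕ)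
    (hInjP : ∀ p : ℕ, p.Prime → p ≠ ℓ → InjAt A F p) :
    ∀ m : ℕ, ¬ ℓ ∣ m → InjAt A F m := by
  intro m
  induction m using Nat.strong_induction_on with
  | _ m ih =>
  intro hℓm u hu hred hord
  rcases Nat.lt_or_ge m 2 with hm | hm
  · interval_cases m
    · exact absurd (dvd_zero ℓ) hℓm
    · exact ⟨u, pow_one u⟩
  have hp : (m.minFac).Prime := Nat.minFac_prime (by omega)
  obtain ⟨m', hm'⟩ := Nat.minFac_dvd m
  set p := m.minFac with hpdef
  have hpℓ : p ≠ ℓ := fun h => hℓm (h ▸ Nat.minFac_dvd m)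
  have hm'pos : 0 < m' := by
    rcases Nat.eq_zero_or_pos m' with h | h
    · rw [h, mul_zero] at hm'; omega
    · exact h
  have hm'lt : m' < m := by
    rw [hm']
    calc m' = 1 * m' := (one_mul _).symm
      _ < p * m' := Nat.mul_lt_mul_of_pos_right hp.one_lt hm'pos
  have hℓm' : ¬ ℓ ∣ m' := fun h => hℓm (hm' ▸ Dvd.dvd.mul_left h p)
  obtain ⟨h, hh⟩ := hInjP p hp hpℓ u hu hred
    (fun P => (Int.natCast_dvd_natCast.2 ⟨m', hm'⟩).trans (hord P))
  obtain ⟨ζ, hζp, hred'⟩ := powF_adjust hPrim p hp.pos u h hu hred hh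
  set h' : F := h * algebraMap QbH F ζ with hh'
  have hh'p : h' ^ p = u := by
    rw [hh', mul_pow, hh, ← map_pow, hζp, map_one, mul_one]
  have hh'0 : h' ≠ 0 := by
    intro h0
    rw [h0, zero_pow hp.ne_zero] at hh'p
    exact hu hh'p.symm
  have hord' : ∀ P : Place QbH F, (m' : ℤ) ∣ P.ord h' := by
    intro P
    have h1 : P.ord u = (p : ℤ) * P.ord h' := by
      rw [← hh'p, ← zpow_natCast, Place.ord_zpow]
    have h2 := hord P
    rw [h1, hm'] at h2
    push_cast at h2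
    exact (mul_dvd_mul_iff_left (by exact_mod_cast hp.ne_zero)).1 h2
  obtain ⟨g, hg⟩ := ih m' hm'lt hℓm' h' hh'0 hred' hord'
  refine ⟨g, ?_⟩
  rw [hm', mul_comm, pow_mul, hg, hh'p]

/-- (INJ) for all exponents prime to `ℓ`, from prime exponents and (PRIM). -/
theorem stmtInjH_of_prime (hPrim : StmtPrimH) (h : StmtInjPrimeH) : StmtInjH := by
  intro L M H ℓ hL hML hℓ hℓL A hA m hm
  exact injAt_of_prime (hPrim L M H A) ℓ
    (fun p hp hpℓ => h L M H ℓ p hL hML hℓ hp hℓL (fun e => hpℓ e.symm) A hA) m hm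

end Fermat.Agent.ES1.G2
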