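import Fermat.Agent.ES1.RCGammaA
import Fermat.Agent.ES.G2.SwapAnalytic
import Fermat.Agent.S24.Model

/-!
# ES₁ / G2, piece SWAP, analytic half (helper40)

`ℓ w₀ − k L = 1`, `γ = [[1, k], [L, ℓ w₀]] ∈ Γ₀(L)`, `W τ = γ • (ℓ τ)`.  For `L = e f`:
`e · W τ = [[1, e k], [f, ℓ w₀]] • (e ℓ τ)` and `e ℓ · W τ = [[ℓ, e k], [f, w₀]] • (e τ)`.  Hence
* `swh_J_W`, `swh_J_W'` : `J(d · Wτ) = J(d ℓ τ)`, `J(d ℓ · Wτ) = J(d τ)` (`d ∣ L`);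
* `swh_theta_W`, `swh_theta_W'` : `θ_c(e · Wτ) = θ_c(e ℓ τ)`, `θ_c(e ℓ · Wτ) = θ_{c ℓ}(e τ)`
  (`e M ∣ L`);
* `swhW_surjective`.
-/

set_option autoImplicit false
set_option linter.style.haveILetI false

noncomputable section

namespace Fermat.Agent.ES1.G2

open UpperHalfPlane CongruenceSubgroup Fermat.Agent.S23 Fermat.Agent.S24 Fermat.Agent.S28
open Fermat.Agent.ES1 Fermat.Agent.ES.G2
open scoped MatrixGroups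

/-- `c z + d ≠ 0` for integers `c, d`, not both `0`, and `z ∈ ℍ`. -/
theorem swh_denom_ne_zero (c d : ℤ) (h : c ≠ 0 ∨ d ≠ 0) (z : ℍ) :
    (c : ℂ) * (z : ℂ) + (d : ℂ) ≠ 0 := by
  intro h0
  have h1 := congrArg Complex.im h0
  have h2 := congrArg Complex.re h0
  simp only [Complex.add_im, Complex.mul_im, Complex.intCast_re, Complex.intCast_im,
    Complex.zero_im, zero_mul, add_zero, coe_im] at h1
  have hc : c = 0 := by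
    rcases mul_eq_zero.mp h1 with h3 | h3
    · exact_mod_cast h3
    · exact absurd h3 z.im_pos.ne'
  subst hc
  simp only [Int.cast_zero, zero_mul, zero_add, Complex.intCast_re, Complex.zero_re] at h2
  have hd : d = 0 := by exact_mod_cast h2
  rcases h with h | h
  · exact h rfl
  · exact h hd

/-- the substitution `W τ = [[1, k], [L, ℓ w₀]] • (ℓ τ)` -/
def swhW (L ℓ : ℕ) [NeZero ℓ] (k w₀ : ℤ) (h : (ℓ : ℤ) * w₀ - k * (L : ℤ) = 1) (τ : ℍ) : ℍ :=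
  swapMat 1 k L ((ℓ : ℤ) * w₀) (by rw [one_mul]; exact h) • scaleN ℓ τ

theorem coe_swhW (L ℓ : ℕ) [NeZero ℓ] (k w₀ : ℤ) (h : (ℓ : ℤ) * w₀ - k * (L : ℤ) = 1) (τ : ℍ) :
    ((swhW L ℓ k w₀ h τ : ℍ) : ℂ) =
      ((ℓ : ℂ) * τ + k) / ((L : ℂ) * ((ℓ : ℂ) * τ) + (ℓ : ℂ) * w₀) := by
  rw [swhW, coe_swapMat_smul, coe_scaleN]
  push_cast
  ring_nf

/-- `e · W τ = [[1, e k], [f, ℓ w₀]] • (e ℓ τ)` for `L = e f` -/
theorem swh_scale_W {L ℓ : ℕ} [NeZero ℓ] (k w₀ : ℤ) (h : (ℓ : ℤ) * w₀ - k * (L : ℤ) = 1)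
    (e f : ℕ) [NeZero e] [NeZero (e * ℓ)] (hL : L = e * f)
    (hdet : (1 : ℤ) * ((ℓ : ℤ) * w₀) - ((e : ℤ) * k) * (f : ℤ) = 1) (τ : ℍ) :
    scaleN e (swhW L ℓ k w₀ h τ) =
      swapMat 1 ((e : ℤ) * k) f ((ℓ : ℤ) * w₀) hdet • scaleN (e * ℓ) τ := by
  apply UpperHalfPlane.ext
  rw [coe_scaleN, coe_swhW, coe_swapMat_smul, coe_scaleN, mul_div_assoc']
  subst hL
  push_cast
  congr 1 <;> ring

/-- `e ℓ · W τ = [[ℓ, e k], [f, w₀]] • (e τ)` for `L = e f` -/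
theorem swh_scale_W' {L ℓ : ℕ} [NeZero ℓ] (hL0 : L ≠ 0) (k w₀ : ℤ)
    (h : (ℓ : ℤ) * w₀ - k * (L : ℤ) = 1)
    (e f : ℕ) [NeZero e] [NeZero (e * ℓ)] (hL : L = e * f)
    (hdet : (ℓ : ℤ) * w₀ - ((e : ℤ) * k) * (f : ℤ) = 1) (τ : ℍ) :
    scaleN (e * ℓ) (swhW L ℓ k w₀ h τ) =
      swapMat ℓ ((e : ℤ) * k) f w₀ hdet • scaleN e τ := by
  apply UpperHalfPlane.ext
  rw [coe_scaleN, coe_swhW, coe_swapMat_smul, coe_scaleN, mul_div_assoc']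
  have hℓC : (ℓ : ℂ) ≠ 0 := Nat.cast_ne_zero.mpr (NeZero.ne ℓ)
  have hden := swh_denom_ne_zero (L : ℤ) w₀ (Or.inl (by exact_mod_cast hL0)) τ
  have hden1 : (L : ℂ) * ((ℓ : ℂ) * τ) + (ℓ : ℂ) * w₀ ≠ 0 := by
    have : (L : ℂ) * ((ℓ : ℂ) * τ) + (ℓ : ℂ) * w₀ = (ℓ : ℂ) * ((L : ℂ) * τ + w₀) := by ring
    rw [this]
    exact mul_ne_zero hℓC (by push_cast at hden; exact hden)
  have hden2 : ((f : ℤ) : ℂ) * ((e : ℂ) * τ) + (w₀ : ℂ) ≠ 0 := by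
    have : ((f : ℤ) : ℂ) * ((e : ℂ) * τ) + (w₀ : ℂ) = (L : ℂ) * τ + w₀ := by
      subst hL; push_cast; ring
    rw [this]
    push_cast at hden; exact hden
  rw [div_eq_div_iff hden1 hden2]
  subst hL
  push_cast
  ring

section J

variable {L ℓ : ℕ} [NeZero ℓ]

/-- `J(d · Wτ) = J(d ℓ τ)` for `d ∣ L` -/
theorem swh_J_W (k w₀ : ℤ) (h : (ℓ : ℤ) * w₀ - k * (L : ℤ) = 1)
    (d : ℕ) [NeZero d] [NeZero (d * ℓ)] (hd : d ∣ L) (τ : ℍ) :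
    Jfun (scaleN d (swhW L ℓ k w₀ h τ)) = Jfun (scaleN (d * ℓ) τ) := by
  obtain ⟨f, hf⟩ := hd
  have hdet : (1 : ℤ) * ((ℓ : ℤ) * w₀) - ((d : ℤ) * k) * (f : ℤ) = 1 := by
    subst hf; push_cast at h ⊢; linear_combination h
  rw [swh_scale_W k w₀ h d f hf hdet τ, Jfun_smul_SL]

/-- `J(d ℓ · Wτ) = J(d τ)` for `d ∣ L` -/
theorem swh_J_W' (hL0 : L ≠ 0) (k w₀ : ℤ) (h : (ℓ : ℤ) * w₀ - k * (L : ℤ) = 1)
    (d : ℕ) [NeZero d] [NeZero (d * ℓ)] (hd : d ∣ L) (τ : ℍ) :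
    Jfun (scaleN (d * ℓ) (swhW L ℓ k w₀ h τ)) = Jfun (scaleN d τ) := by
  obtain ⟨f, hf⟩ := hd
  have hdet : (ℓ : ℤ) * w₀ - ((d : ℤ) * k) * (f : ℤ) = 1 := by
    subst hf; push_cast at h ⊢; linear_combination h
  rw [swh_scale_W' hL0 k w₀ h d f hf hdet τ, Jfun_smul_SL]

end J

section Theta

variable {L M ℓ : ℕ} [NeZero ℓ] [NeZero M] (H : Subgroup (ZMod M)ˣ)

theorem swh_swapMat_mem_Gamma0 (a b c d : ℤ) (h : a * d - b * c = 1) (N : ℕ)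
    (hc : (N : ℤ) ∣ c) : swapMat a b c d h ∈ Gamma0 N := by
  rw [Gamma0_mem, ZMod.intCast_zmod_eq_zero_iff_dvd]
  have : (swapMat a b c d h) 1 0 = c := by simp [swapMat]
  rw [this]
  exact hc

theorem swh_swapMat_00 (a b c d : ℤ) (h : a * d - b * c = 1) :
    (swapMat a b c d h) 0 0 = a := by simp [swapMat]

/-- `θ_c(e · Wτ) = θ_c(e ℓ τ)` for `e M ∣ L` -/
theorem swh_theta_W (k w₀ : ℤ) (h : (ℓ : ℤ) * w₀ - k * (L : ℤ) = 1)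
    (e : ℕ) [NeZero e] [NeZero (e * ℓ)] (he : e * M ∣ L) (c : (ZMod M)ˣ) (τ : ℍ) :
    es1rcThetaE e H c (swhW L ℓ k w₀ h τ) = es1rcThetaE (e * ℓ) H c τ := by
  obtain ⟨g, hg⟩ := he
  have hf : L = e * (M * g) := by rw [hg, mul_assoc]
  have hdet : (1 : ℤ) * ((ℓ : ℤ) * w₀) - ((e : ℤ) * k) * ((M * g : ℕ) : ℤ) = 1 := by
    subst hf; push_cast at h ⊢; linear_combination h
  have hmem : swapMat 1 ((e : ℤ) * k) ((M * g : ℕ) : ℤ) ((ℓ : ℤ) * w₀) hdet ∈ Gamma0 M :=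
    swh_swapMat_mem_Gamma0 _ _ _ _ _ M ⟨g, by push_cast; ring⟩
  unfold es1rcThetaE
  rw [swh_scale_W k w₀ h e (M * g) hf hdet τ, es1rcTheta_smul H c _ hmem]
  congr 2
  have : diamHom M ⟨_, hmem⟩ = 1 := by
    ext
    rw [coe_diamHom, swh_swapMat_00]
    simp
  rw [this, mul_one]

/-- `θ_c(e ℓ · Wτ) = θ_{c ℓ}(e τ)` for `e M ∣ L` -/
theorem swh_theta_W' (hL0 : L ≠ 0) (k w₀ : ℤ) (h : (ℓ : ℤ) * w₀ - k * (L : ℤ) = 1)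
    (e : ℕ) [NeZero e] [NeZero (e * ℓ)] (he : e * M ∣ L) (c u : (ZMod M)ˣ)
    (hu : (u : ZMod M) = (ℓ : ZMod M)) (τ : ℍ) :
    es1rcThetaE (e * ℓ) H c (swhW L ℓ k w₀ h τ) = es1rcThetaE e H (c * u) τ := by
  obtain ⟨g, hg⟩ := he
  have hf : L = e * (M * g) := by rw [hg, mul_assoc]
  have hdet : (ℓ : ℤ) * w₀ - ((e : ℤ) * k) * ((M * g : ℕ) : ℤ) = 1 := by
    subst hf; push_cast at h ⊢; linear_combination h
  have hmem : swapMat (ℓ : ℤ) ((e : ℤ) * k) ((M * g : ℕ) : ℤ) w₀ hdet ∈ Gamma0 M :=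
    swh_swapMat_mem_Gamma0 _ _ _ _ _ M ⟨g, by push_cast; ring⟩
  unfold es1rcThetaE
  rw [swh_scale_W' hL0 k w₀ h e (M * g) hf hdet τ, es1rcTheta_smul H c _ hmem]
  congr 2
  have : diamHom M ⟨_, hmem⟩ = u := by
    ext
    rw [coe_diamHom, swh_swapMat_00, hu]
    simp
  rw [this]

end Theta

/-- `τ ↦ ℓ τ` is surjective on `ℍ` -/
theorem swh_scaleN_surjective (ℓ : ℕ) [NeZero ℓ] : Function.Surjective (scaleN ℓ) := by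
  intro y
  have hℓ : (0 : ℝ) < (ℓ : ℝ) := Nat.cast_pos.mpr (Nat.pos_of_ne_zero (NeZero.ne ℓ))
  have hℓC : (ℓ : ℂ) ≠ 0 := Nat.cast_ne_zero.mpr (NeZero.ne ℓ)
  have him : 0 < ((y : ℂ) / (ℓ : ℂ)).im := by
    have : ((y : ℂ) / (ℓ : ℂ)).im = y.im / (ℓ : ℝ) := by
      rw [Complex.div_natCast_im]; rfl
    rw [this]
    exact div_pos y.im_pos hℓ
  refine ⟨⟨(y : ℂ) / (ℓ : ℂ), him⟩, ?_⟩
  apply UpperHalfPlane.ext
  rw [coe_scaleN]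
  show (ℓ : ℂ) * ((y : ℂ) / (ℓ : ℂ)) = y
  field_simp

/-- `W` is surjective -/
theorem swhW_surjective (L ℓ : ℕ) [NeZero ℓ] (k w₀ : ℤ) (h : (ℓ : ℤ) * w₀ - k * (L : ℤ) = 1) :
    Function.Surjective (swhW L ℓ k w₀ h) := by
  intro z
  obtain ⟨τ, hτ⟩ := swh_scaleN_surjective ℓ
    ((swapMat 1 k L ((ℓ : ℤ) * w₀) (by rw [one_mul]; exact h))⁻¹ • z)
  refine ⟨τ, ?_⟩
  rw [swhW, hτ, smul_smul, mul_inv_cancel, one_smul]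

end Fermat.Agent.ES1.G2
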