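import Fermat.Agent.ES1.G2.SwapHAn
import Fermat.Agent.S24.Bridge
import Fermat.Agent.S28.Bridge

/-!
# ES₁ / G2, piece SWAP, the bridge (helper40)

Generic transfer of polynomial relations: if the functions `gA i` on `ℍ` are meromorphic at `∞`
with Laurent expansions `gB i` (coefficients in `ℚ̄ ⊂ ℂ`), then

* `swh_bridge` : `P(gB) = 0` in `ℚ̄((q))` iff `P(gA(τ)) = 0` for all `τ ∈ ℍ`;
* `swh_rel_iff` : if `gA i ∘ W = gA (s i)` for a surjective `W : ℍ → ℍ`, then the families `gB` and
  `gB ∘ s` satisfy the same polynomial relations over `ℚ̄`;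
* `swh_exists_algHom` : hence a `ℚ̄`-endomorphism `φ` of `S = ℚ̄(gB)` with `φ (gB i) = gB (s i)`.
-/

set_option autoImplicit false
set_option linter.style.haveILetI false

noncomputable section

namespace Fermat.Agent.ES1.G2

open UpperHalfPlane ModularCurve Fermat.Agent.S23 Fermat.Agent.S24 Fermat.Agent.S28

section generic

variable {ι : Type*}

theorem swh_coeffMap_aeval (gB : ι → LaurentSeries Kb) (P : MvPolynomial ι Kb) :
    coeffMap embC (MvPolynomial.aeval gB P) =
      MvPolynomial.aeval (fun i => coeffMap embC (gB i)) (MvPolynomial.map embC P) := by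
  rw [MvPolynomial.aeval_def, MvPolynomial.aeval_def, MvPolynomial.eval₂_map,
    MvPolynomial.hom_eval₂]
  congr 1
  ext c : 1
  simp only [RingHom.comp_apply, algebraMap_laurentSeries_eq_single, coeffMap_single]

/-- **Bridge**: a polynomial relation between the formal `gB i` over `ℚ̄` holds iff it holds
between the values of the functions `gA i` at every point of `ℍ`. -/
theorem swh_bridge (gA : ι → ℍ → ℂ) (gB : ι → LaurentSeries Kb) (hA : ∀ i, IsMerInf (gA i))
    (hAB : ∀ i, laurentOf (gA i) = coeffMap embC (gB i)) (P : MvPolynomial ι Kb) :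
    MvPolynomial.aeval gB P = 0 ↔
      ∀ τ : ℍ, MvPolynomial.aeval (R := ℂ) (fun i => gA i τ) (MvPolynomial.map embC P) = 0 := by
  set Q : MvPolynomial ι ℂ := MvPolynomial.map embC P with hQ
  let gA' : ι → merInf := fun i => ⟨gA i, hA i⟩
  have h1 : laurentExp (MvPolynomial.aeval gA' Q) =
      MvPolynomial.aeval (fun i => coeffMap embC (gB i)) Q := by
    rw [MvPolynomial.comp_aeval_apply gA' laurentExp Q]
    have h0 : (fun i => laurentExp (gA' i)) = fun i => coeffMap embC (gB i) :=
      funext fun i => hAB i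
    rw [h0]
  have h2 : ∀ τ : ℍ, ((MvPolynomial.aeval gA' Q : merInf) : ℍ → ℂ) τ =
      MvPolynomial.aeval (R := ℂ) (fun i => gA i τ) Q := by
    intro τ
    have h3 := MvPolynomial.comp_aeval_apply gA' (merInf.val) Q
    have h4 := MvPolynomial.comp_aeval_apply (fun i => ((gA' i : merInf) : ℍ → ℂ))
      (Pi.evalAlgHom ℂ (fun _ : ℍ => ℂ) τ) Q
    have h5 : ((MvPolynomial.aeval gA' Q : merInf) : ℍ → ℂ) =
        MvPolynomial.aeval (fun i => ((gA' i : merInf) : ℍ → ℂ)) Q := h3
    rw [h5]
    exact h4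
  constructor
  · intro h τ
    rw [← h2 τ]
    have h6 : MvPolynomial.aeval gA' Q = 0 := by
      apply laurentExp_injective
      rw [h1, map_zero, ← swh_coeffMap_aeval, h, map_zero]
    rw [h6]
    rfl
  · intro h
    apply br_coeffMap_embC_injective
    rw [map_zero, swh_coeffMap_aeval, ← h1]
    have h6 : MvPolynomial.aeval gA' Q = 0 := by
      apply Subtype.ext
      funext τ
      rw [h2 τ, h τ]
      rfl
    rw [h6, map_zero]

/-- transfer of relations along a substitution `W` -/
theorem swh_rel_iff (gA : ι → ℍ → ℂ) (gB : ι → LaurentSeries Kb) (hA : ∀ i, IsMerInf (gA i))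
    (hAB : ∀ i, laurentOf (gA i) = coeffMap embC (gB i)) (s : ι → ι) (W : ℍ → ℍ)
    (hW : Function.Surjective W) (hs : ∀ i τ, gA i (W τ) = gA (s i) τ)
    (P : MvPolynomial ι Kb) :
    MvPolynomial.aeval gB P = 0 ↔ MvPolynomial.aeval (fun i => gB (s i)) P = 0 := by
  rw [swh_bridge gA gB hA hAB P,
    swh_bridge (fun i => gA (s i)) (fun i => gB (s i)) (fun i => hA (s i))
      (fun i => hAB (s i)) P]
  constructor
  · intro h τ
    have h1 := h (W τ)
    have h2 : (fun i => gA i (W τ)) = fun i => gA (s i) τ := funext fun i => hs i τ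
    rw [h2] at h1
    exact h1
  · intro h z
    obtain ⟨τ, rfl⟩ := hW z
    have h1 := h τ
    have h2 : (fun i => gA i (W τ)) = fun i => gA (s i) τ := funext fun i => hs i τ
    rw [h2]
    exact h1

/-- the endomorphism of `S = ℚ̄(gB)` defined by the substitution `W` -/
theorem swh_exists_algHom (S : IntermediateField Kb (LaurentSeries Kb))
    (gA : ι → ℍ → ℂ) (gB : ι → LaurentSeries Kb)
    (hS : S = IntermediateField.adjoin Kb (Set.range gB)) (hA : ∀ i, IsMerInf (gA i))
    (hAB : ∀ i, laurentOf (gA i) = coeffMap embC (gB i)) (s : ι → ι) (W : ℍ → ℍ)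
    (hW : Function.Surjective W) (hs : ∀ i τ, gA i (W τ) = gA (s i) τ) :
    ∃ φ : S →ₐ[Kb] S, ∀ (i : ι) (hi : gB i ∈ S),
      ((φ ⟨gB i, hi⟩ : S) : LaurentSeries Kb) = gB (s i) := by
  have hmem : ∀ i, gB i ∈ S := fun i => by
    rw [hS]; exact IntermediateField.subset_adjoin Kb _ ⟨i, rfl⟩
  obtain ⟨φ, hφ⟩ := br_exists_algHom_of_eq_adjoin S gB hS
    (fun i => (⟨gB (s i), hmem (s i)⟩ : S)) (fun P => by
      rw [swh_rel_iff gA gB hA hAB s W hW hs P]
      have h := MvPolynomial.comp_aeval_apply (fun i => (⟨gB (s i), hmem (s i)⟩ : S))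
        (IntermediateField.val S) P
      have h' : MvPolynomial.aeval (fun i => gB (s i)) P =
          ((MvPolynomial.aeval (fun i => (⟨gB (s i), hmem (s i)⟩ : S)) P : S) :
            LaurentSeries Kb) := h.symm
      rw [h']
      exact ⟨fun h0 => Subtype.ext h0, fun h0 => congrArg Subtype.val h0⟩)
  exact ⟨φ, fun i hi => by rw [hφ i hi]⟩

end generic

end Fermat.Agent.ES1.G2
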